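import Fermat.Agent.TorLift.LocInst

/-!
# Lifting torsion classes
-/

set_option autoImplicit false
set_option linter.unusedSectionVars false
set_option linter.style.haveILetI false

noncomputable section

namespace Fermat.Agent.TorLift

open AlgebraicCurve Fermat.Agent.Curves Fermat.Agent.GoodRed Polynomial WithZero
open Fermat.Agent.Models

section Prep

variable {K E : Type*} [Field K] [Field E] [Algebra K E] [IsAlgClosed K] [IsFunctionField K E]

/-- Putting a function with divisor in `n Div` in good position. -/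
theorem exists_position {t : E} (ht : Transcendental K t)
    (hram : {P : Place K E | ¬ (t ∈ P.toValuationSubring ∧
      P.ord (t - algebraMap K E (value P t)) = 1)}.Finite) {n : ℕ} (hn : 0 < n) {u : E}
    (hu0 : u ≠ 0) (hu : ∀ P : Place K E, (n : ℤ) ∣ P.ord u) (m : ℕ) :
    ∃ (w q : E) (N : ℕ) (T : Finset K), w ≠ 0 ∧ q ≠ 0 ∧ ExactGr (K := K) t (u * w ^ n) (N * n) ∧
      ∃ σ : E, u * w ^ n = σ * q ∧ ∃ S : ℕ, ExactGr (K := K) t σ S ∧ N * n = m + S ∧ m ≤ N ∧
      (∀ P : Place K E, t ∈ P.toValuationSubring → P.ord (u * w ^ n) ≠ 0 →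
        P.ord (t - algebraMap K E (value P t)) = 1) ∧
      (∀ P : Place K E, t ∈ P.toValuationSubring → value P t ∈ T →
        P.ord q = 1 ∧ P.ord (u * w ^ n) = n) ∧
      (∀ P : Place K E, t ∈ P.toValuationSubring → value P t ∉ T → P.ord q = 0) := by
  classical
  have ht0 : t ≠ 0 := by rintro rfl; exact ht isAlgebraic_zero
  haveI : Infinite K := IsAlgClosed.instInfinite
  set Ram := {P : Place K E | ¬ (t ∈ P.toValuationSubring ∧
      P.ord (t - algebraMap K E (value P t)) = 1)} with hRam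
  set Vb : Set K := (fun P : Place K E => value P t) '' Ram with hVb
  have hVbf : Vb.Finite := hram.image _
  set Bd : Set (Place K E) := {P | t ∉ P.toValuationSubring} ∪ ⋃ c ∈ Vb, fib t c with hBd
  have hBdf : Bd.Finite := by
    refine Set.Finite.union (hram.subset fun P hP h => hP h.1) ?_
    exact hVbf.biUnion fun c _ => fib_finite t ht c
  have hnotBd : ∀ P : Place K E, P ∉ Bd → t ∈ P.toValuationSubring ∧ value P t ∉ Vb ∧
      P.ord (t - algebraMap K E (value P t)) = 1 := by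
    intro P hP
    rw [hBd, Set.mem_union, not_or] at hP
    have h1 : t ∈ P.toValuationSubring := not_not.mp hP.1
    have h2 : value P t ∉ Vb := by
      intro h
      exact hP.2 (Set.mem_biUnion h ⟨h1, rfl⟩)
    refine ⟨h1, h2, ?_⟩
    by_contra h3
    exact h2 ⟨P, fun h => h3 h.2, rfl⟩
  have hBd' : ∀ P : Place K E, t ∈ P.toValuationSubring → value P t ∈ Vb → P ∈ Bd :=
    fun P h1 h2 => Or.inr (Set.mem_biUnion h2 ⟨h1, rfl⟩)
  -- moving away from the bad places
  obtain ⟨g, hg0, hg⟩ := exists_ord_eq_finset hBdf.toFinset fun P => -(P.ord u / n)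
  set u₁ := u * g ^ n with hu₁
  have hu₁0 : u₁ ≠ 0 := mul_ne_zero hu0 (pow_ne_zero _ hg0)
  have hu₁B : ∀ P ∈ Bd, P.ord u₁ = 0 := by
    intro P hP
    rw [hu₁, P.ord_mul hu0 (pow_ne_zero _ hg0), ord_pow, hg P (hBdf.mem_toFinset.mpr hP)]
    obtain ⟨d, hd⟩ := hu P
    have hn0 : (n : ℤ) ≠ 0 := by exact_mod_cast hn.ne'
    rw [hd, Int.mul_ediv_cancel_left _ hn0]
    ring
  set S := (finite_support (k := K) u₁).toFinset with hS
  have hSm : ∀ {P : Place K E}, P ∈ S ↔ P.ord u₁ ≠ 0 := by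
    intro P
    rw [hS, Set.Finite.mem_toFinset]
    rfl
  have hSB : ∀ P ∈ S, P ∉ Bd := fun P hP h => hSm.mp hP (hu₁B P h)
  obtain ⟨b, hb⟩ := Fermat.Agent.Models.exists_ord_bound (K := K) u₁
  set h₀ := ∏ P ∈ S, (t - algebraMap K E (value P t)) with hh₀
  have hh₀0 : h₀ ≠ 0 := Finset.prod_ne_zero_iff.mpr fun P _ => sub_algebraMap_ne_zero ht _
  -- the movable values
  set Vs : Set K := (fun P : Place K E => value P t) '' (S : Set (Place K E)) with hVs
  have hVsf : Vs.Finite := S.finite_toSet.image _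
  obtain ⟨T, hT, hTc⟩ := (hVbf.union hVsf).infinite_compl.exists_subset_card_eq m
  have hTb : ∀ c ∈ T, c ∉ Vb ∧ c ∉ Vs := by
    intro c hc
    have := hT hc
    rw [Set.mem_compl_iff, Set.mem_union, not_or] at this
    exact this
  set q := ∏ c ∈ T, (t - algebraMap K E c) with hq
  have hq0 : q ≠ 0 := Finset.prod_ne_zero_iff.mpr fun c _ => sub_algebraMap_ne_zero ht _
  set w := g * h₀ ^ b * q with hw
  have hw0 : w ≠ 0 := mul_ne_zero (mul_ne_zero hg0 (pow_ne_zero _ hh₀0)) hq0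
  obtain ⟨n', hn'⟩ : ∃ n', n = n' + 1 := ⟨n - 1, by omega⟩
  set σ := u₁ * (h₀ ^ b) ^ n * q ^ n' with hσ
  have hσ0 : σ ≠ 0 := mul_ne_zero (mul_ne_zero hu₁0 (pow_ne_zero _ (pow_ne_zero _ hh₀0)))
    (pow_ne_zero _ hq0)
  have e1 : u * w ^ n = σ * q := by
    rw [hw, hσ, hu₁, mul_pow, mul_pow]
    conv_lhs => rw [show q ^ n = q ^ n' * q by rw [← pow_succ, ← hn']]
    ring
  have hs0 : u * w ^ n ≠ 0 := mul_ne_zero hu0 (pow_ne_zero _ hw0)
  have hordσ : ∀ P : Place K E, P.ord σ = P.ord u₁ + n * (b * P.ord h₀) + n' * P.ord q := by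
    intro P
    rw [hσ, P.ord_mul (mul_ne_zero hu₁0 (pow_ne_zero _ (pow_ne_zero _ hh₀0)))
      (pow_ne_zero _ hq0), P.ord_mul hu₁0 (pow_ne_zero _ (pow_ne_zero _ hh₀0)), ord_pow, ord_pow,
      ord_pow]
  have hords : ∀ P : Place K E, P.ord (u * w ^ n) = P.ord u₁ + n * (b * P.ord h₀) + n * P.ord q := by
    intro P
    rw [e1, P.ord_mul hσ0 hq0, hordσ, hn']
    push_cast
    ring
  -- finite places
  have hfin : ∀ P : Place K E, t ∈ P.toValuationSubring → 0 ≤ P.ord u₁ + n * (b * P.ord h₀) := by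
    intro P hP
    have h2 := ord_prod_nonneg ht hP S fun P => value P t
    have hb' := hb P
    have hb0 : (0 : ℤ) ≤ b := Int.natCast_nonneg b
    have hn1 : (1 : ℤ) ≤ n := by exact_mod_cast hn
    by_cases h1 : P ∈ S
    · have h3 := one_le_ord_prod ht hP S (fun P => value P t) h1 rfl
      have h4 : (b : ℤ) * 1 ≤ b * P.ord h₀ := mul_le_mul_of_nonneg_left h3 hb0
      have h5 : 1 * ((b : ℤ) * P.ord h₀) ≤ n * (b * P.ord h₀) :=
        mul_le_mul_of_nonneg_right hn1 (by nlinarith)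
      omega
    · have h3 : P.ord u₁ = 0 := not_not.mp fun h => h1 (hSm.mpr h)
      rw [h3, zero_add]
      exact mul_nonneg (by omega) (mul_nonneg hb0 h2)
  -- places over infinity
  have hinf : ∀ P : Place K E, t ∉ P.toValuationSubring → P.ord u₁ = 0 ∧
      P.ord h₀ = S.card * P.ord t ∧ P.ord q = m * P.ord t := by
    intro P hP
    refine ⟨hu₁B P (Or.inl hP), ord_prod_inf ht hP S _, ?_⟩
    rw [hq, ord_prod_inf ht hP T _, hTc]
  -- orders of `h₀` and `q`
  have hh₀z : ∀ P : Place K E, t ∈ P.toValuationSubring → value P t ∉ Vs → P.ord h₀ = 0 := by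
    intro P hP hv
    refine ord_prod_zero ht hP S _ fun P' hP' h => hv ?_
    rw [h]
    exact ⟨P', hP', rfl⟩
  have hqz : ∀ P : Place K E, t ∈ P.toValuationSubring → value P t ∉ T → P.ord q = 0 := by
    intro P hP hv
    exact ord_prod_zero ht hP T _ fun c hc h => hv (h ▸ hc)
  refine ⟨w, q, b * S.card + m, T, hw0, hq0, ⟨hs0, fun P hP => ?_, fun P hP => ?_⟩, σ, e1,
    n * (b * S.card) + n' * m, ⟨hσ0, fun P hP => ?_, fun P hP => ?_⟩, ?_, by omega,
    fun P hP hne => ?_, fun P hP hv => ?_, hqz⟩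
  · rw [mem_iff_ord P hs0, hords]
    have h1 := hfin P hP
    have h2 := ord_prod_nonneg ht hP T fun c => c
    have : 0 ≤ (n : ℤ) * P.ord q := mul_nonneg (Int.natCast_nonneg n) h2
    omega
  · obtain ⟨h1, h2, h3⟩ := hinf P hP
    rw [hords, h1, h2, h3]
    push_cast
    ring
  · rw [mem_iff_ord P hσ0, hordσ]
    have h1 := hfin P hP
    have h2 := ord_prod_nonneg ht hP T fun c => c
    have : 0 ≤ (n' : ℤ) * P.ord q := mul_nonneg (Int.natCast_nonneg n') h2
    omega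
  · obtain ⟨h1, h2, h3⟩ := hinf P hP
    rw [hordσ, h1, h2, h3]
    push_cast
    ring
  · rw [hn']
    ring
  · -- unramified
    have hPB : P ∉ Bd := by
      intro hB
      have hv : value P t ∈ Vb := by
        rcases hB with h | h
        · exact absurd hP h
        · simp only [Set.mem_iUnion] at h
          obtain ⟨c, hc, h⟩ := h
          rw [h.2]
          exact hc
      apply hne
      rw [hords, hu₁B P hB, hh₀z P hP ?_, hqz P hP fun h => (hTb _ h).1 hv]
      · simp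
      · rintro ⟨P', hP', h⟩
        refine hSB P' hP' (hBd' P' (hnotBd P' (hSB P' hP')).1 ?_)
        have : value P' t = value P t := h
        rw [this]
        exact hv
    exact (hnotBd P hPB).2.2
  · obtain ⟨h1, h2⟩ := hTb _ hv
    have hPB : P ∉ Bd := by
      rintro (h | h)
      · exact h hP
      · simp only [Set.mem_iUnion] at h
        obtain ⟨c, hc, h⟩ := h
        rw [← h.2] at hc
        exact h1 hc
    have hPS : P.ord u₁ = 0 := by
      by_contra h
      exact h2 ⟨P, hSm.mpr h, rfl⟩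
    have h3 : P.ord q = 1 := ord_prod_eq_one ht hP (hnotBd P hPB).2.2 T hv
    refine ⟨h3, ?_⟩
    rw [hords, hPS, hh₀z P hP h2, h3]
    ring

theorem ord_eq_zero_of_cnt_le {S : Set (Place K E)} {x : E} (h : ∀ v ∈ S, 0 ≤ v.ord x)
    {v : Place K E} (hv : v ∈ S) (hc : cnt S x ≤ v.ord x) {w : Place K E}
    (hw : w ∈ S) (hwv : w ≠ v) : w.ord x = 0 := by
  classical
  set D := divisorOf (k := K) x with hD
  have e : D = Finsupp.single v (D v) + D.erase v := (Finsupp.single_add_erase v D).symm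
  have h1 : ∀ w ∈ S, 0 ≤ D.erase v w := by
    intro w hw
    by_cases hwv : w = v
    · subst hwv; simp
    · rw [Finsupp.erase_ne hwv]; exact h w hw
  have h2 : cnt S x = v.ord x + degOn S (D.erase v) := by
    show degOn S D = _
    conv_lhs => rw [e, map_add, degOn_single_mem hv]
    rfl
  have h3 := degOn_nonneg h1
  have h5 : degOn S (D.erase v) = 0 := by omega
  have := eq_zero_of_degOn h1 h5 hw
  rw [Finsupp.erase_ne hwv] at this
  exact this

end Prep

variable {k κ : Type*} [Field k] [Field κ] {B : Res k κ} {F 𝓕 : Type*} [Field F] [Algebra k F]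
  [Field 𝓕] [Algebra κ 𝓕] [IsAlgClosed k] [IsAlgClosed κ] [IsFunctionField k F]
  [IsFunctionField κ 𝓕] {C₀ : Comp B F 𝓕} {t : F}

theorem exists_spec_of_place (hB : B.RankOne) (ht : IsGood (one C₀) t) (hS : Surj (one C₀) t)
    {P : Place k F} (hP : t ∈ P.toValuationSubring) (hPt : value P t ∈ B.O) :
    ∃ (M : Ideal (chart (one C₀) t)) (Q : Place κ 𝓕), P ∈ gen t M ∧ Q ∈ spec t M () := by
  have hC := incomp_one C₀
  have hM := isPoint_evP hB hC ht P hP hPt
  obtain ⟨i, Q, hQ⟩ := exists_spec hB hC ht hS hM.isMaximal fun a ha har => hM.small_mem ha har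
  exact ⟨_, Q, (mem_gen_iff hB hC ht).mpr ⟨hP, hPt, rfl⟩, hQ⟩

theorem cnt_gen_eq (hB : B.RankOne) (ht : IsGood (one C₀) t) (hS : Surj (one C₀) t)
    {M : Ideal (chart (one C₀) t)} {Q : Place κ 𝓕} (hQ : Q ∈ spec t M ()) {s : F}
    (hs : C₀.r s ≠ 0) : cnt (gen t M) s = Q.ord (C₀.r s) := by
  have hC := incomp_one C₀
  have hM : IsPoint t M := isPoint_of_spec hB hC ht ⟨Q, hQ⟩
  have hcons := local_conserve' hB hC ht hS hM (Res.ne_zero_of_r hs) fun _ _ => hs
  rw [Fintype.sum_unique] at hcons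
  rw [hcons]
  exact cnt_subsingleton (spec_subsingleton ht hS M ()) hQ _

/-- **Lifting of torsion classes.** -/
theorem exists_torsion_lift (hB : B.RankOne) (hcp : Cplt B) {π₀ : k} (h0 : π₀ ≠ 0)
    (hO : π₀ ∈ B.O) (hr : B.r π₀ = 0) (ht : IsGood (one C₀) t) (hS : Surj (one C₀) t)
    (hS' : Surj (one C₀) t⁻¹)
    (hram : {P : Place κ 𝓕 | ¬ (C₀.r t ∈ P.toValuationSubring ∧
      P.ord (C₀.r t - algebraMap κ 𝓕 (value P (C₀.r t))) = 1)}.Finite) {n : ℕ}
    (hn : (n : κ) ≠ 0) {u : 𝓕} (hu0 : u ≠ 0) (hu : ∀ P : Place κ 𝓕, (n : ℤ) ∣ P.ord u) :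
    ∃ (s : F) (w : 𝓕), w ≠ 0 ∧ C₀.r s = u * w ^ n ∧ ∀ P : Place k F, (n : ℤ) ∣ P.ord s := by
  classical
  have hC := incomp_one C₀
  have hτ : Transcendental κ (C₀.r t) := ht.trans ()
  have hτ0 : C₀.r t ≠ 0 := ht.r_ne_zero ()
  have ht0 : t ≠ 0 := Res.ne_zero_of_r hτ0
  have htO : t ∈ C₀.O := ht.mem ()
  have hn0 : 0 < n := Nat.pos_of_ne_zero (by rintro rfl; simp at hn)
  obtain ⟨R₀, hR₀⟩ := exists_division hτ
  obtain ⟨R₁, hR₁⟩ := exists_lift_gr ht hS hS'
  obtain ⟨w, q, N, T, hw0, hq0, hsex, σ, hsσ, S, hσex, hNS, hmN, hunr, hTq, hTq'⟩ :=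
    exists_position hτ hram hn0 hu0 hu (max R₀ R₁)
  set sb := u * w ^ n with hsb
  have hsb0 : sb ≠ 0 := hsex.1
  have hσ0 : σ ≠ 0 := hσex.1
  have hsn : ∀ P : Place κ 𝓕, (n : ℤ) ∣ P.ord sb := by
    intro P
    rw [hsb, P.ord_mul hu0 (pow_ne_zero _ hw0), ord_pow]
    exact dvd_add (hu P) (dvd_mul_right _ _)
  -- index set
  set Sf := (finite_support (k := κ) sb).toFinset.filter
    (fun P => C₀.r t ∈ P.toValuationSubring) with hSf
  have hSfm : ∀ {P : Place κ 𝓕}, P ∈ Sf ↔ P.ord sb ≠ 0 ∧ C₀.r t ∈ P.toValuationSubring := by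
    intro P
    rw [hSf, Finset.mem_filter, Set.Finite.mem_toFinset]
    rfl
  have hvτ : ∀ i : Sf, C₀.r t ∈ (i : Place κ 𝓕).toValuationSubring := fun i => (hSfm.mp i.2).2
  have hvord : ∀ i : Sf, (i : Place κ 𝓕).ord
      (C₀.r t - algebraMap κ 𝓕 (value (i : Place κ 𝓕) (C₀.r t))) = 1 := fun i =>
    hunr i (hvτ i) (hSfm.mp i.2).1
  let M : Sf → Ideal (chart (one C₀) t) := fun i => RingHom.ker (evb hB hC ht () (i : Place κ 𝓕)
    (hvτ i))
  have hMs : ∀ i : Sf, (i : Place κ 𝓕) ∈ spec t (M i) () := fun i =>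
    (mem_spec_iff hB hC ht).mpr ⟨hvτ i, rfl⟩
  choose c hc hcv using fun i : Sf => B.r_surjective (value (i : Place κ 𝓕) (C₀.r t))
  have hL : ∀ i : Sf, Loc C₀ (LL C₀ t (M i)) (i : Place κ 𝓕) (t - algebraMap k F (c i))
      (gen t (M i)) := fun i =>
    loc_of_unram hB ht hS (hMs i) (hc i) (by rw [hcv]; exact hvord i)
  -- multiplicities
  let μ : Sf → ℕ := fun i => ((i : Place κ 𝓕).ord sb).toNat
  let ν : Sf → ℕ := fun i => ((i : Place κ 𝓕).ord σ).toNat
  have hμ0 : ∀ i : Sf, ((i : Place κ 𝓕).ord sb) = μ i := fun i =>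
    (Int.toNat_of_nonneg ((mem_iff_ord _ hsb0).mp (hsex.2.1 _ (hvτ i)))).symm
  have hν0 : ∀ i : Sf, ((i : Place κ 𝓕).ord σ) = ν i := fun i =>
    (Int.toNat_of_nonneg ((mem_iff_ord _ hσ0).mp (hσex.2.1 _ (hvτ i)))).symm
  have hμν : ∀ i : Sf, (μ i : ℤ) = ν i + (i : Place κ 𝓕).ord q := by
    intro i
    rw [← hμ0, ← hν0, hsσ, (i : Place κ 𝓕).ord_mul hσ0 hq0]
  -- the lifts
  have hNn : R₁ ≤ N * n := by
    have h1 : R₁ ≤ N := (le_max_right _ _).trans hmN
    exact h1.trans (Nat.le_mul_of_pos_right N hn0)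
  obtain ⟨s₀, hs₀g, hs₀O, hs₀r⟩ := hR₁ (N * n) hNn sb (hsex.mem_gr hτ0)
  haveI : FiniteDimensional κ (gr κ (C₀.r t) (N * n)) := finiteDimensional_riemannRochSpace _
  let bs := Module.finBasis κ (gr κ (C₀.r t) (N * n))
  choose v hvg hvO hvr using fun j => hR₁ (N * n) hNn (bs j : 𝓕) (bs j).2
  have hchart : ∀ {x : F}, x ∈ gr k t (N * n) → x ∈ C₀.O → x ∈ chart (one C₀) t :=
    fun hx hO => ⟨fun P hP => mem_affine_of_gr ht0 hx P hP, fun _ => hO⟩
  -- jets
  have hjet : ∀ x : Sf → F, (∀ i, x i ∈ LL C₀ t (M i)) →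
      ∃ d : Fin (Module.finrank κ (gr κ (C₀.r t) (N * n))) → k, (∀ j, d j ∈ B.O) ∧
      ∀ i : Sf, Van (i : Place κ 𝓕) (ν i)
        (C₀.r (∑ j, algebraMap k F (d j) * v j - x i)) := by
    intro x hx
    obtain ⟨δ, hδ, hδ'⟩ := jets_of_division hτ hR₀ (fun i : Sf => (i : Place κ 𝓕))
      Subtype.val_injective hvτ _ hvord ν hσex
      (fun i => by rw [van_iff hσ0, hν0]) (fun i => C₀.r (x i))
      (fun i => ((hL i).memO _ (hx i)).2)
    have hδN : δ ∈ gr κ (C₀.r t) (N * n) := gr_mono (by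
      rw [hNS]
      have := le_max_left R₀ R₁
      omega) hδ
    choose d hd hdr using fun j => B.r_surjective (bs.repr ⟨δ, hδN⟩ j)
    refine ⟨d, hd, fun i => ?_⟩
    have hterm : ∀ j ∈ Finset.univ, algebraMap k F (d j) * v j ∈ C₀.O := fun j _ =>
      mul_mem (C₀.algebraMap_mem _ (hd j)) (hvO j)
    have e1 : C₀.r (∑ j, algebraMap k F (d j) * v j - x i) = δ - C₀.r (x i) := by
      rw [Res.r_sub (sum_mem hterm) (hx i).1, Res.r_sum _ _ hterm]
      congr 1
      have h1 := congrArg (fun y : gr κ (C₀.r t) (N * n) => (y : 𝓕)) (bs.sum_repr ⟨δ, hδN⟩)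
      simp only [Submodule.coe_sum, Submodule.coe_smul] at h1
      rw [← h1]
      refine Finset.sum_congr rfl fun j _ => ?_
      rw [Res.r_mul (C₀.algebraMap_mem _ (hd j)) (hvO j), C₀.r_algebraMap _ (hd j), hdr, hvr,
        Algebra.smul_def]
    rw [e1]
    exact hδ' i
  obtain ⟨a, ha, hQ⟩ := newton hB hcp hL h0 hO hr ν μ
    (fun i : Sf => value (i : Place κ 𝓕) (C₀.r t) ∈ T)
    (fun i hi => by
      obtain ⟨h1, h2⟩ := hTq i (hvτ i) hi
      have h3 := hμν i
      have h4 := hμ0 i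
      rw [h2] at h4
      rw [h1] at h3
      refine ⟨by omega, ?_⟩
      have h5 : μ i = n := by omega
      rw [h5]
      exact hn)
    (fun i hi => by
      have h3 := hμν i
      rw [hTq' i (hvτ i) hi] at h3
      omega) v hjet
    (fun j i => chart_le_LL (hchart (hvg j) (hvO j))) hvO
    (fun i => chart_le_LL (hchart hs₀g hs₀O)) (by rw [hs₀r]; exact hsb0)
    (fun i => by rw [hs₀r, hμ0])
  -- the solution
  set s := s₀ + ∑ j, algebraMap k F (a j) * v j with hs
  have hterm : ∀ j ∈ Finset.univ, algebraMap k F (a j) * v j ∈ C₀.O := fun j _ =>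
    mul_mem (C₀.algebraMap_mem _ (ha j).1) (hvO j)
  have hsO : s ∈ C₀.O := add_mem hs₀O (sum_mem hterm)
  have hsr : C₀.r s = sb := by
    rw [hs, Res.r_add hs₀O (sum_mem hterm), Res.r_sum _ _ hterm, Finset.sum_eq_zero, add_zero, hs₀r]
    intro j _
    rw [Res.r_mul (C₀.algebraMap_mem _ (ha j).1) (hvO j),
      C₀.r_algebraMap_eq_zero (ha j).1 (ha j).2, zero_mul]
  have hsr0 : C₀.r s ≠ 0 := by rw [hsr]; exact hsb0
  have hs0 : s ≠ 0 := Res.ne_zero_of_r hsr0
  have hsg : s ∈ gr k t (N * n) := by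
    refine add_mem hs₀g (sum_mem fun j _ => ?_)
    rw [← Algebra.smul_def]
    exact Submodule.smul_mem _ _ (hvg j)
  refine ⟨s, w, hw0, hsr, fun P => ?_⟩
  by_cases hP : t ∈ P.toValuationSubring ∧ value P t ∈ B.O
  · -- finite part
    obtain ⟨M', Q', hPM, hQM⟩ := exists_spec_of_place hB ht hS hP.1 hP.2
    have hcnt := cnt_gen_eq hB ht hS hQM hsr0
    rw [hsr] at hcnt
    have hnn : ∀ v ∈ gen t M', 0 ≤ v.ord s := fun v hv => (mem_iff_ord v hs0).mp
      (mem_affine_of_gr ht0 hsg v hv.1)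
    by_cases hQ' : Q'.ord sb = 0
    · have h1 := le_cnt hnn hPM
      rw [hcnt, hQ'] at h1
      have h2 := hnn P hPM
      have h3 : P.ord s = 0 := le_antisymm h1 h2
      rw [h3]
      exact dvd_zero _
    · have hi : Q' ∈ Sf := hSfm.mpr ⟨hQ', hQM.1⟩
      obtain ⟨h4, rfl⟩ := (mem_spec_iff hB hC ht).mp hQM
      obtain ⟨Q, hQD, hQv⟩ := hQ ⟨Q', hi⟩
      have hQv' : Q'.ord sb ≤ Q.ord s := by
        rw [van_iff hs0] at hQv
        have := hμ0 ⟨Q', hi⟩
        rw [← this] at hQv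
        exact hQv
      rcases eq_or_ne P Q with rfl | hne
      · have h5 := le_cnt hnn hPM
        rw [hcnt] at h5
        have h6 : P.ord s = Q'.ord sb := le_antisymm h5 hQv'
        rw [h6]
        exact hsn Q'
      · have h5 := ord_eq_zero_of_cnt_le hnn hQD (by rw [hcnt]; exact hQv') hPM hne
        rw [h5]
        exact dvd_zero _
  · -- the part at infinity
    have htg := ht.inv
    have hrti : C₀.r t⁻¹ = (C₀.r t)⁻¹ := Res.r_inv hτ0
    have hPi : t⁻¹ ∈ P.toValuationSubring ∧ value P t⁻¹ ∈ B.O ∧ B.r (value P t⁻¹) = 0 := by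
      by_cases h1 : t ∈ P.toValuationSubring
      · have h2 : value P t ∉ B.O := fun h => hP ⟨h1, h⟩
        have h3 : value P t ≠ 0 := Res.ne_zero_of_notMem h2
        obtain ⟨h4, h5⟩ := value_inv' h1 h3
        rw [h5]
        exact ⟨h4, Res.inv_mem_of_notMem h2, Res.r_inv_of_notMem h2⟩
      · have h2 : t⁻¹ ∈ P.toValuationSubring :=
          (P.toValuationSubring.mem_or_inv_mem t).resolve_left h1
        have h3 : value P t⁻¹ = 0 := by
          rw [value_eq_zero_iff P h2, val_lt_one_iff, P.ord_inv]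
          right
          rw [mem_iff_ord P ht0] at h1
          omega
        rw [h3]
        exact ⟨h2, zero_mem _, Res.r_zero⟩
    obtain ⟨M', Q', hPM, hQM⟩ := exists_spec_of_place hB htg hS' hPi.1 hPi.2.1
    set y := s * t⁻¹ ^ (N * n) with hy
    have hyr : C₀.r y = sb * (C₀.r t)⁻¹ ^ (N * n) := by
      rw [hy, Res.r_mul hsO (pow_mem (htg.mem ()) _), Res.r_pow (htg.mem ()), hrti, hsr]
    have hyr0 : C₀.r y ≠ 0 := by
      rw [hyr]; exact mul_ne_zero hsb0 (pow_ne_zero _ (inv_ne_zero hτ0))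
    have hcnt := cnt_gen_eq hB htg hS' hQM hyr0
    have hy0 : y ≠ 0 := Res.ne_zero_of_r hyr0
    have hnn : ∀ v ∈ gen t⁻¹ M', 0 ≤ v.ord y := fun v hv => (mem_iff_ord v hy0).mp
      (((mem_gr_iff ht0).mp hsg).2 v hv.1)
    -- `Q'` lies over infinity
    have hQ'1 : Q'.ord (C₀.r y) = 0 := by
      have hQt : C₀.r t ∉ Q'.toValuationSubring := by
        have hC' := incomp_one C₀
        have hM' := isPoint_of_spec hB hC' htg ⟨Q', hQM⟩
        have hmem : t⁻¹ ∈ chart (one C₀) t⁻¹ := self_mem_chart fun i => htg.mem i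
        have h1 : B.r (value P t⁻¹) = value Q' (C₀.r t⁻¹) :=
          loc_value_place hB hC' htg hM'.isMaximal.isPrime hPM hQM (chart_le_loc _ hmem)
        rw [hPi.2.2, hrti] at h1
        intro h2
        have h3 : (C₀.r t)⁻¹ ∈ Q'.toValuationSubring := by rw [← hrti]; exact hQM.1
        have h4 := (value_eq_zero_iff Q' h3).mp h1.symm
        rw [val_lt_one_iff, Q'.ord_inv] at h4
        rw [mem_iff_ord Q' hτ0] at h2
        rcases h4 with h4 | h4
        · exact inv_ne_zero hτ0 h4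
        · omega
      rw [hyr, Q'.ord_mul hsb0 (pow_ne_zero _ (inv_ne_zero hτ0)), hsex.2.2 Q' hQt, ord_pow,
        Q'.ord_inv]
      ring
    rw [hQ'1] at hcnt
    have h1 := le_cnt hnn hPM
    have h2 := hnn P hPM
    have h3 : P.ord y = 0 := by omega
    have h4 : P.ord s = (N * n : ℕ) * P.ord t := by
      rw [hy, P.ord_mul hs0 (pow_ne_zero _ (inv_ne_zero ht0)), ord_pow, P.ord_inv] at h3
      linarith
    rw [h4]
    push_cast
    exact ⟨N * P.ord t, by ring⟩

end Fermat.Agent.TorLift
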