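import Fermat.Agent.TorLift.Main
import Fermat.Agent.SSMod.GaussN
import Fermat.Agent.GoodRed.ModKL
import Fermat.Agent.PicFlat.Unram

/-!
# Lifting torsion classes: modular function fields
-/

set_option autoImplicit false
set_option linter.unusedSectionVars false
set_option linter.style.haveILetI false
set_option synthInstance.maxHeartbeats 400000

noncomputable section

namespace Fermat.Agent.TorLift

open AlgebraicCurve Fermat.Agent.Curves Fermat.Agent.GoodRed Polynomial ModularCurve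
open Fermat.Agent.Models Fermat.Agent.SSMod IntermediateField

local notation "ℒ" => LaurentSeries

variable {K κ : Type*} [Field K] [Field κ] {A : ValuationSubring K} (π : A →+* κ) (N : ℕ)
  [IsLocalHom π] [IsAlgClosed K] [IsAlgClosed κ]

/-- every nonzero function has a scaled reduction -/
theorem scale_N (hπ : Function.Surjective π) (hNK : (N : K) ≠ 0) (hNκ : (N : κ) ≠ 0)
    {x : ℒ K} (hx : x ∈ modularFunctionFieldFullC K N) (hx0 : x ≠ 0) :
    ∃ c : K, c ≠ 0 ∧ ∃ y ∈ modularFunctionFieldFullC κ N, y ≠ 0 ∧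
      LR π (HahnSeries.C c * x) y := by
  haveI := isFunctionField_fullC K N hNK
  haveI := isFunctionField_fullC κ N hNκ
  obtain ⟨c, hc, h, h0⟩ := (modGauss π N hπ hNK hNκ).scale ⟨x, hx⟩
    (fun h => hx0 (congrArg Subtype.val h))
  refine ⟨c, hc, _, ((modGauss π N hπ hNK hNκ).red ⟨_, h⟩).2, fun h1 => h0 (Subtype.ext h1), ?_⟩
  have h2 : (modGauss π N hπ hNK hNκ).R
      (algebraMap K (modularFunctionFieldFullC K N) c * ⟨x, hx⟩)
      ((modGauss π N hπ hNK hNκ).red ⟨_, h⟩) := ⟨h, rfl⟩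
  rw [modGauss_R] at h2
  have e : ((algebraMap K (modularFunctionFieldFullC K N) c * ⟨x, hx⟩ :
      modularFunctionFieldFullC K N) : ℒ K) = HahnSeries.C c * x := by
    rw [ModFun.C_eq_algebraMap]
    rfl
  rwa [e] at h2

/-- reductions of functions of level `N` are of level `N` -/
theorem red_mem_N (hπ : Function.Surjective π) (hNK : (N : K) ≠ 0) (hNκ : (N : κ) ≠ 0)
    {x : ℒ K} (hx : x ∈ modularFunctionFieldFullC K N) {y : ℒ κ} (h : LR π x y) :
    y ∈ modularFunctionFieldFullC κ N := by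
  rcases eq_or_ne y 0 with rfl | hy
  · exact zero_mem _
  have hx0 : x ≠ 0 := by
    rintro rfl
    exact hy (h.unique (LR.zero π))
  obtain ⟨c, hc, z, hz, hz0, h'⟩ := scale_N π N hπ hNK hNκ hx hx0
  have h1 : LR π (HahnSeries.C c : ℒ K) (z * y⁻¹) := by
    have := h'.mul (h.inv hy)
    rwa [mul_assoc, mul_inv_cancel₀ hx0, mul_one] at this
  have h2 : LR π (HahnSeries.C c⁻¹ : ℒ K) (y * z⁻¹) := by
    have := h.mul (h'.inv hz0)
    have hC : (HahnSeries.C c : ℒ K) ≠ 0 := by simpa using hc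
    have e : x * (HahnSeries.C c * x)⁻¹ = HahnSeries.C c⁻¹ := by
      rw [mul_inv, map_inv₀]
      field_simp
    rwa [e] at this
  -- `c` is a unit
  have key : ∃ d : κ, z = HahnSeries.C d * y := by
    rcases A.mem_or_inv_mem c with hcA | hcA
    · refine ⟨π ⟨c, hcA⟩, ?_⟩
      have := h1.unique (LR.C ⟨c, hcA⟩)
      rw [← this, mul_assoc, inv_mul_cancel₀ hy, mul_one]
    · have h3 := h2.unique (LR.C ⟨c⁻¹, hcA⟩)
      have h4 : π ⟨c⁻¹, hcA⟩ ≠ 0 := by
        intro h5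
        rw [h5, map_zero] at h3
        rcases mul_eq_zero.mp h3 with h6 | h6
        · exact hy h6
        · exact hz0 (inv_eq_zero.mp h6)
      refine ⟨(π ⟨c⁻¹, hcA⟩)⁻¹, ?_⟩
      have h5 : (HahnSeries.C (π ⟨c⁻¹, hcA⟩) : ℒ κ) ≠ 0 := by simpa using h4
      rw [map_inv₀, ← h3]
      field_simp
  obtain ⟨d, hd⟩ := key
  have hd0 : d ≠ 0 := by
    rintro rfl
    rw [map_zero, zero_mul] at hd
    exact hz0 hd
  have e : y = algebraMap κ (ℒ κ) d⁻¹ * z := by
    have h5 : (HahnSeries.C d : ℒ κ) ≠ 0 := by simpa using hd0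
    rw [hd, ← ModFun.C_eq_algebraMap, map_inv₀]
    field_simp
  rw [e]
  exact mul_mem (IntermediateField.algebraMap_mem _ _) hz

/-- functions of level `N` lift -/
theorem lift_N (hπ : Function.Surjective π) (hNK : (N : K) ≠ 0) (hNκ : (N : κ) ≠ 0)
    {y : ℒ κ} (hy : y ∈ modularFunctionFieldFullC κ N) :
    ∃ x ∈ modularFunctionFieldFullC K N, LR π x y := by
  haveI := isFunctionField_fullC K N hNK
  haveI := isFunctionField_fullC κ N hNκ
  obtain ⟨x, hx⟩ := (modGauss π N hπ hNK hNκ).surj ⟨y, hy⟩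
  have h2 : (modGauss π N hπ hNK hNκ).R (x : modularFunctionFieldFullC K N) ⟨y, hy⟩ := ⟨x.2, hx⟩
  rw [modGauss_R] at h2
  exact ⟨_, (x : modularFunctionFieldFullC K N).2, h2⟩

/-- the good reduction component -/
def cGood (hπ : Function.Surjective π) (hNK : (N : K) ≠ 0) (hNκ : (N : κ) ≠ 0) :
    Comp (baseRes π hπ) (modularFunctionFieldFullC K N) (modularFunctionFieldFullC κ N) :=
  lrComp hπ (modularFunctionFieldFullC K N) (modularFunctionFieldFullC κ N)
    (fun _ hx _ h => red_mem_N π N hπ hNK hNκ hx h)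
    (fun _ hy => lift_N π N hπ hNK hNκ hy)
    (fun _ hx hx0 => by
      obtain ⟨c, hc, y, -, hy, h⟩ := scale_N π N hπ hNK hNκ hx hx0
      exact ⟨c, hc, y, hy, h⟩)

theorem cGood_r_eq {hπ : Function.Surjective π} {hNK : (N : K) ≠ 0} {hNκ : (N : κ) ≠ 0}
    {x : modularFunctionFieldFullC K N} {y : modularFunctionFieldFullC κ N}
    (h : LR π (x : ℒ K) (y : ℒ κ)) :
    x ∈ (cGood π N hπ hNK hNκ).O ∧ (cGood π N hπ hNK hNκ).r x = y :=
  lrComp_r_eq hπ _ _ _ _ _ h

theorem cGood_spec {hπ : Function.Surjective π} {hNK : (N : K) ≠ 0} {hNκ : (N : κ) ≠ 0}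
    {x : modularFunctionFieldFullC K N} (hx : x ∈ (cGood π N hπ hNK hNκ).O) :
    LR π (x : ℒ K) ((cGood π N hπ hNK hNκ).r x : ℒ κ) :=
  lrComp_spec hπ _ _ _ _ _ hx

section Good

variable {hπ : Function.Surjective π} {hNK : (N : K) ≠ 0} {hNκ : (N : κ) ≠ 0}
  [IsFunctionField K (modularFunctionFieldFullC K N)]
  [IsFunctionField κ (modularFunctionFieldFullC κ N)]

theorem isGood_of_chart {t : modularFunctionFieldFullC K N} {tb : modularFunctionFieldFullC κ N}
    (h : Chart (modGauss π N hπ hNK hNκ) t tb) : IsGood (one (cGood π N hπ hNK hNκ)) t := by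
  have h1 := cGood_r_eq π N (hπ := hπ) (hNK := hNK) (hNκ := hNκ) ((modGauss_R π N).1 h.R)
  refine ⟨fun _ => h1.1, fun _ => ?_, ?_⟩
  · show Transcendental κ ((cGood π N hπ hNK hNκ).r t)
    rw [h1.2]; exact h.trb
  · rw [Fintype.sum_unique]
    show Module.finrank (IntermediateField.adjoin κ {(cGood π N hπ hNK hNκ).r t}) _ = _
    rw [h1.2]
    exact h.finrank_eq.symm

theorem surj_of_chart {t : modularFunctionFieldFullC K N} {tb : modularFunctionFieldFullC κ N}
    (h : GoodChart (modGauss π N hπ hNK hNκ) t tb) : Surj (one (cGood π N hπ hNK hNκ)) t := by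
  have h1 := cGood_r_eq π N (hπ := hπ) (hNK := hNK) (hNκ := hNκ) ((modGauss_R π N).1 h.R)
  intro _ y hy
  change y ∈ affineRing κ ((cGood π N hπ hNK hNκ).r t) at hy
  rw [h1.2] at hy
  obtain ⟨x, hx, hxy⟩ := h.lift y hy
  have h2 := cGood_r_eq π N (hπ := hπ) (hNK := hNK) (hNκ := hNκ) ((modGauss_R π N).1 hxy)
  exact ⟨x, ⟨hx, fun _ => h2.1⟩, h2.2⟩

end Good

/-- **Lifting torsion classes** for modular function fields. -/
theorem exists_torsion_lift_N (h : HasGood π N) (hπ : Function.Surjective π)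
    (hr : GoodRed.RankOne π)
    (hcp : Cplt (baseRes π hπ)) {π₀ : K} (h0 : π₀ ≠ 0) (hO : π₀ ∈ (baseRes π hπ).O)
    (hr0 : (baseRes π hπ).r π₀ = 0) {n : ℕ} (hn : (n : κ) ≠ 0) {u : ℒ κ}
    (hum : u ∈ modularFunctionFieldFullC κ N) (hu0 : u ≠ 0)
    (hu : ∀ P : Place κ (modularFunctionFieldFullC κ N), (n : ℤ) ∣ P.ord ⟨u, hum⟩) :
    ∃ s ∈ modularFunctionFieldFullC K N, ∃ w ∈ modularFunctionFieldFullC κ N, s ≠ 0 ∧ w ≠ 0 ∧
      LR π s (u * w ^ n) ∧
      ∀ (hs : s ∈ modularFunctionFieldFullC K N) (P : Place K (modularFunctionFieldFullC K N)),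
        (n : ℤ) ∣ P.ord ⟨s, hs⟩ := by
  obtain ⟨_, hNK, hNκ, t, tb, h1, h2⟩ := h
  haveI := isFunctionField_fullC K N hNK
  haveI := isFunctionField_fullC κ N hNκ
  have h1c : Chart (modGauss π N hπ hNK hNκ) t tb := ⟨h1.R, h1.tr, h1.trb, h1.sep, h1.sepb, h1.finrank_eq⟩
  have hgood : IsGood (one (cGood π N hπ hNK hNκ)) t := isGood_of_chart π N h1c
  have hr1 := cGood_r_eq π N (hπ := hπ) (hNK := hNK) (hNκ := hNκ) ((modGauss_R π N).1 h1.R)
  have hram := PicFlat.finite_ramified h1.trb h1.sepb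
  have hS : Surj (one (cGood π N hπ hNK hNκ)) t := surj_of_chart π N h1
  have hS' : Surj (one (cGood π N hπ hNK hNκ)) t⁻¹ := surj_of_chart π N h2
  obtain ⟨s, w, hw0, hsw, hs⟩ := exists_torsion_lift (C₀ := cGood π N hπ hNK hNκ)
    (baseRes_rankOne π hπ hr) hcp h0 hO hr0
    hgood hS hS' (by rw [hr1.2]; exact hram) hn (u := ⟨u, hum⟩)
    (fun h => hu0 (congrArg Subtype.val h)) hu
  have hne : (⟨u, hum⟩ : modularFunctionFieldFullC κ N) * w ^ n ≠ 0 :=
    mul_ne_zero (fun h => hu0 (congrArg Subtype.val h)) (pow_ne_zero _ hw0)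
  have hr2 : (cGood π N hπ hNK hNκ).r s ≠ 0 := by rw [hsw]; exact hne
  refine ⟨s, s.2, w, w.2, ?_, fun h => hw0 (Subtype.ext h), ?_, fun _ P => hs P⟩
  · intro h
    exact Res.ne_zero_of_r hr2 (Subtype.ext h)
  · have := cGood_spec π N (Res.mem_of_r_ne_zero hr2)
    rw [hsw] at this
    exact this

end Fermat.Agent.TorLift
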