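import Fermat.Agent.GoodRed.Rigid
import Fermat.Agent.Models.Center

/-!
# Functions of bounded growth
-/

set_option autoImplicit false
set_option linter.unusedSectionVars false
set_option linter.style.haveILetI false

noncomputable section

namespace Fermat.Agent.TorLift

open AlgebraicCurve Fermat.Agent.Curves Fermat.Agent.GoodRed Polynomial WithZero
open Fermat.Agent.Models

section Van

variable {K E : Type*} [Field K] [Field E] [Algebra K E]

/-- `x` vanishes to order `≥ ν` at `v` -/
def Van (v : Place K E) (ν : ℕ) (x : E) : Prop := v.adicValuation x ≤ exp (-(ν : ℤ))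

theorem van_zero_iff {v : Place K E} {x : E} : Van v 0 x ↔ x ∈ v.toValuationSubring := by
  rw [Van, mem_iff_val]
  simp

theorem van_iff {v : Place K E} {x : E} {ν : ℕ} (hx : x ≠ 0) : Van v ν x ↔ (ν : ℤ) ≤ v.ord x :=
  val_le_exp_iff v hx

theorem van_z (v : Place K E) (ν : ℕ) : Van v ν (0 : E) := by
  rw [Van, map_zero]; exact zero_le

theorem Van.add {v : Place K E} {x y : E} {ν : ℕ} (hx : Van v ν x) (hy : Van v ν y) :
    Van v ν (x + y) := (Valuation.map_add _ _ _).trans (max_le hx hy)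

theorem Van.neg {v : Place K E} {x : E} {ν : ℕ} (hx : Van v ν x) : Van v ν (-x) := by
  rw [Van, Valuation.map_neg]; exact hx

theorem Van.sub {v : Place K E} {x y : E} {ν : ℕ} (hx : Van v ν x) (hy : Van v ν y) :
    Van v ν (x - y) := by
  rw [sub_eq_add_neg]; exact hx.add hy.neg

theorem Van.mul {v : Place K E} {x y : E} {m n : ℕ} (hx : Van v m x) (hy : Van v n y) :
    Van v (m + n) (x * y) := by
  rw [Van, map_mul]
  have : exp (-((m + n : ℕ) : ℤ)) = exp (-(m : ℤ)) * exp (-(n : ℤ)) := by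
    rw [← exp_add]; congr 1; push_cast; ring
  rw [this]
  exact mul_le_mul' hx hy

theorem Van.mono {v : Place K E} {x : E} {m n : ℕ} (hx : Van v m x) (h : n ≤ m) : Van v n x :=
  hx.trans (exp_le_exp.mpr (by omega))

theorem Van.mem {v : Place K E} {x : E} {m : ℕ} (hx : Van v m x) : x ∈ v.toValuationSubring :=
  van_zero_iff.mp (hx.mono (Nat.zero_le _))

theorem Van.mul_left {v : Place K E} {x y : E} {n : ℕ} (hx : x ∈ v.toValuationSubring)
    (hy : Van v n y) : Van v n (x * y) := by
  have := (van_zero_iff.mpr hx).mul hy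
  rwa [zero_add] at this

theorem Van.pow {v : Place K E} {x : E} (hx : Van v 1 x) (n : ℕ) : Van v n (x ^ n) := by
  induction n with
  | zero => rw [pow_zero, van_zero_iff]; exact one_mem _
  | succ n ih => rw [pow_succ]; exact ih.mul hx

theorem Van.sum {v : Place K E} {ι : Type*} (s : Finset ι) {x : ι → E} {n : ℕ}
    (h : ∀ i ∈ s, Van v n (x i)) : Van v n (∑ i ∈ s, x i) := by
  classical
  induction s using Finset.induction_on with
  | empty => exact van_z v n
  | insert i s hi ih =>
    rw [Finset.sum_insert hi]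
    exact (h i (Finset.mem_insert_self _ _)).add (ih fun j hj => h j (Finset.mem_insert_of_mem hj))

theorem van_of_mul {v : Place K E} {z x : E} (hz : v.ord z = 1) {n : ℕ}
    (h : Van v (n + 1) (z * x)) : Van v n x := by
  rcases eq_or_ne x 0 with rfl | hx
  · exact van_z v n
  have hz0 : z ≠ 0 := by rintro rfl; simp at hz
  rw [van_iff (mul_ne_zero hz0 hx), v.ord_mul hz0 hx, hz] at h
  rw [van_iff hx]
  push_cast at h
  omega

theorem van_one_iff [IsAlgClosed K] [IsFunctionField K E] {v : Place K E} {x : E}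
    (hx : x ∈ v.toValuationSubring) : Van v 1 x ↔ value v x = 0 := by
  rw [value_eq_zero_iff v hx, val_lt_one_iff]
  rcases eq_or_ne x 0 with rfl | h0
  · simp [van_z]
  · rw [van_iff h0, or_iff_right h0]
    push_cast
    omega

/-- Taylor polynomial -/
theorem exists_taylor_poly [IsAlgClosed K] [IsFunctionField K E] {v : Place K E} {t : E} {c : K}
    (hz : v.ord (t - algebraMap K E c) = 1) (n : ℕ) :
    ∀ x ∈ v.toValuationSubring, ∃ p : K[X], Van v n (x - aeval t p) := by
  induction n with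
  | zero =>
    intro x hx
    exact ⟨0, by rw [map_zero, sub_zero, van_zero_iff]; exact hx⟩
  | succ n ih =>
    intro x hx
    have hz0 : t - algebraMap K E c ≠ 0 := by intro h; rw [h] at hz; simp at hz
    have h1 : Van v 1 (x - algebraMap K E (value v x)) := by
      rw [van_one_iff (sub_mem hx (v.algebraMap_mem' _)), value_sub' v hx (v.algebraMap_mem' _),
        value_algebraMap, sub_self]
    set y := (x - algebraMap K E (value v x)) / (t - algebraMap K E c) with hy
    have e1 : x - algebraMap K E (value v x) = (t - algebraMap K E c) * y := by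
      rw [hy]; field_simp
    have hyv : y ∈ v.toValuationSubring := by
      rw [← van_zero_iff]
      refine van_of_mul hz ?_
      rw [← e1]
      exact h1
    obtain ⟨p, hp⟩ := ih y hyv
    refine ⟨C (value v x) + (X - C c) * p, ?_⟩
    have e2 : x - aeval t (C (value v x) + (X - C c) * p) =
        (t - algebraMap K E c) * (y - aeval t p) := by
      rw [map_add, map_mul, map_sub, aeval_X, aeval_C, aeval_C, mul_sub, ← e1]
      ring
    rw [e2, add_comm n 1]
    refine Van.mul ?_ hp
    rw [van_iff hz0, hz]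
    simp

end Van

section Gr

variable {K E : Type*} [Field K] [Field E] [Algebra K E] [IsAlgClosed K] [IsFunctionField K E]

variable (K) in
/-- functions with poles only at the poles of `t`, with growth at most `R` -/
def gr (t : E) (R : ℕ) : Submodule K E := riemannRochSpace (R • poleDivisor (k := K) t)

theorem mem_gr {t x : E} {R : ℕ} : x ∈ gr K t R ↔
    ∀ v : Place K E, x = 0 ∨ -(R * max 0 (-v.ord t)) ≤ v.ord x := by
  rw [gr, mem_riemannRochSpace_iff]
  refine forall_congr' fun v => ?_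
  rw [Finsupp.smul_apply, poleDivisor_apply, nsmul_eq_mul]

theorem mem_gr_iff {t x : E} (ht : t ≠ 0) {R : ℕ} : x ∈ gr K t R ↔
    x ∈ affineRing K t ∧ x * t⁻¹ ^ R ∈ affineRing K t⁻¹ := by
  rcases eq_or_ne x 0 with rfl | hx
  · rw [zero_mul]
    exact ⟨fun _ => ⟨zero_mem _, zero_mem _⟩, fun _ => zero_mem _⟩
  have hR : (0 : ℤ) ≤ R := Int.natCast_nonneg R
  have hxt : x * t⁻¹ ^ R ≠ 0 := mul_ne_zero hx (pow_ne_zero _ (inv_ne_zero ht))
  have e : ∀ v : Place K E, v.ord (x * t⁻¹ ^ R) = v.ord x - R * v.ord t := by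
    intro v
    rw [v.ord_mul hx (pow_ne_zero _ (inv_ne_zero ht)), ord_pow, v.ord_inv]
    ring
  rw [mem_gr]
  constructor
  · intro h
    refine ⟨fun v hv => ?_, fun v hv => ?_⟩
    · have h1 := (h v).resolve_left hx
      rw [mem_iff_ord v ht] at hv
      rw [mem_iff_ord v hx]
      rw [max_eq_left (by omega)] at h1
      simpa using h1
    · have h1 := (h v).resolve_left hx
      rw [mem_iff_ord v (inv_ne_zero ht), v.ord_inv] at hv
      rw [mem_iff_ord v hxt, e]
      rw [max_eq_right (by omega)] at h1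
      nlinarith
  · rintro ⟨h1, h2⟩ v
    right
    by_cases hv : 0 ≤ v.ord t
    · have h3 := h1 v ((mem_iff_ord v ht).mpr hv)
      rw [mem_iff_ord v hx] at h3
      have : 0 ≤ max 0 (-v.ord t) := le_max_left _ _
      nlinarith
    · have h3 := h2 v ((mem_iff_ord v (inv_ne_zero ht)).mpr (by rw [v.ord_inv]; omega))
      rw [mem_iff_ord v hxt, e] at h3
      rw [max_eq_right (by omega)]
      nlinarith

theorem gr_mono {t : E} {R R' : ℕ} (h : R ≤ R') : gr K t R ≤ gr K t R' := by
  intro x hx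
  rw [mem_gr] at hx ⊢
  intro v
  refine (hx v).imp_right fun h1 => le_trans ?_ h1
  have : 0 ≤ max 0 (-v.ord t) := le_max_left _ _
  have : (R : ℤ) ≤ R' := by exact_mod_cast h
  nlinarith

theorem gr_mul {t x y : E} {R S : ℕ} (hx : x ∈ gr K t R) (hy : y ∈ gr K t S) :
    x * y ∈ gr K t (R + S) := by
  rw [mem_gr] at hx hy ⊢
  intro v
  rcases eq_or_ne x 0 with rfl | hx0
  · left; rw [zero_mul]
  rcases eq_or_ne y 0 with rfl | hy0
  · left; rw [mul_zero]
  right
  have h1 := (hx v).resolve_left hx0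
  have h2 := (hy v).resolve_left hy0
  rw [v.ord_mul hx0 hy0]
  push_cast
  nlinarith

theorem self_mem_gr (t : E) : t ∈ gr K t 1 := by
  rw [mem_gr]
  intro v
  right
  push_cast
  have : -v.ord t ≤ max 0 (-v.ord t) := le_max_right _ _
  linarith

theorem one_mem_gr (t : E) : (1 : E) ∈ gr K t 0 := by
  rw [mem_gr]
  intro v
  right
  simp

theorem pow_mem_gr (t : E) (n : ℕ) : t ^ n ∈ gr K t n := by
  induction n with
  | zero => rw [pow_zero]; exact one_mem_gr t
  | succ n ih => rw [pow_succ]; exact gr_mul ih (self_mem_gr t)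

theorem exists_mem_gr {t x : E} (ht : t ≠ 0) (hx : x ∈ affineRing K t) : ∃ R, x ∈ gr K t R := by
  rcases eq_or_ne x 0 with rfl | hx0
  · exact ⟨0, zero_mem _⟩
  obtain ⟨b, hb⟩ := Fermat.Agent.Models.exists_ord_bound (K := K) x
  refine ⟨b, ?_⟩
  rw [mem_gr]
  intro v
  right
  have h1 := hb v
  by_cases hv : 0 ≤ v.ord t
  · have h3 := hx v ((mem_iff_ord v ht).mpr hv)
    rw [mem_iff_ord v hx0] at h3
    have : 0 ≤ max 0 (-v.ord t) := le_max_left _ _
    have : (0 : ℤ) ≤ b := Int.natCast_nonneg b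
    nlinarith
  · have h2 : (1 : ℤ) ≤ max 0 (-v.ord t) := by rw [max_eq_right (by omega)]; omega
    have h4 : (0 : ℤ) ≤ b := Int.natCast_nonneg b
    have h5 : -(b : ℤ) ≤ v.ord x := by omega
    nlinarith

theorem mem_affine_of_gr {t x : E} (ht : t ≠ 0) {R : ℕ} (hx : x ∈ gr K t R) :
    x ∈ affineRing K t := ((mem_gr_iff ht).mp hx).1

theorem mem_gr_of_mul {t x : E} (ht : t ≠ 0) {R : ℕ} (hx : x ∈ affineRing K t)
    (h : t * x ∈ gr K t (R + 1)) : x ∈ gr K t R := by
  rw [mem_gr_iff ht] at h ⊢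
  refine ⟨hx, ?_⟩
  have e : x * t⁻¹ ^ R = t * x * t⁻¹ ^ (R + 1) := by
    rw [pow_succ]; field_simp
  rw [e]
  exact h.2

section Lin

variable {k V : Type*} [Field k] [AddCommGroup V] [Module k V]

theorem finrank_map_mkQ {A A' : Submodule k V} [FiniteDimensional k A'] (h : A ≤ A') :
    Module.finrank k (A'.map A.mkQ) + Module.finrank k A = Module.finrank k A' := by
  have h1 := LinearMap.finrank_range_add_finrank_ker (A.mkQ.comp A'.subtype)
  rw [LinearMap.range_comp, Submodule.range_subtype] at h1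
  rw [← h1]
  congr 1
  have e : LinearMap.ker (A.mkQ.comp A'.subtype) = A.comap A'.subtype := by
    rw [LinearMap.ker_comp, Submodule.ker_mkQ]
  rw [e]
  exact (Submodule.comapSubtypeEquivOfLe h).finrank_eq.symm

theorem lin_aux {U U' A A' : Submodule k V} [FiniteDimensional k U'] [FiniteDimensional k A']
    (hU : U ≤ U') (hA : A ≤ A') (L : V →ₗ[k] V) (hL : ∀ x ∈ U', L x ∈ A')
    (hL0 : ∀ x ∈ U, L x ∈ A) (hinj : ∀ x ∈ U', L x ∈ A → x ∈ U) :
    Module.finrank k U' + Module.finrank k A ≤ Module.finrank k A' + Module.finrank k U ∧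
    (Module.finrank k U' + Module.finrank k A = Module.finrank k A' + Module.finrank k U →
      ∀ y ∈ A', ∃ x ∈ U', y - L x ∈ A) := by
  set φ : U' →ₗ[k] (V ⧸ A) := (A.mkQ.comp L).comp U'.subtype with hφ
  have h1 := LinearMap.finrank_range_add_finrank_ker φ
  have hker : LinearMap.ker φ = U.comap U'.subtype := by
    ext x
    rw [LinearMap.mem_ker, hφ, LinearMap.comp_apply, LinearMap.comp_apply, Submodule.mkQ_apply,
      Submodule.Quotient.mk_eq_zero, Submodule.mem_comap]
    exact ⟨fun h => hinj _ x.2 h, fun h => hL0 _ h⟩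
  have h2 : Module.finrank k (LinearMap.ker φ) = Module.finrank k U := by
    rw [hker]; exact (Submodule.comapSubtypeEquivOfLe hU).finrank_eq
  have h3 : LinearMap.range φ ≤ A'.map A.mkQ := by
    rintro _ ⟨x, rfl⟩
    exact ⟨L x, hL _ x.2, rfl⟩
  have h4 := finrank_map_mkQ hA
  have h5 := Submodule.finrank_mono h3
  refine ⟨by omega, fun heq y hy => ?_⟩
  have h6 : LinearMap.range φ = A'.map A.mkQ :=
    Submodule.eq_of_le_of_finrank_le h3 (by omega)
  have h7 : A.mkQ y ∈ LinearMap.range φ := by rw [h6]; exact ⟨y, hy, rfl⟩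
  obtain ⟨x, hx⟩ := h7
  refine ⟨x, x.2, ?_⟩
  rw [← Submodule.ker_mkQ A, LinearMap.mem_ker, map_sub, ← hx]
  simp [hφ]

theorem exists_stable {w : ℕ → ℕ} (hw : Monotone w) {d : ℕ} (hd : ∀ n, w n ≤ d) :
    ∃ n₀, ∀ n ≥ n₀, w n = w n₀ := by
  have hb : BddAbove (Set.range w) := ⟨d, by rintro _ ⟨n, rfl⟩; exact hd n⟩
  obtain ⟨n₀, hn₀⟩ := Nat.sSup_mem (Set.range_nonempty w) hb
  refine ⟨n₀, fun n hn => le_antisymm ?_ (hw hn)⟩
  rw [hn₀]
  exact le_csSup hb ⟨n, rfl⟩

end Lin

/-- exact growth -/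
def ExactGr (t σ : E) (S : ℕ) : Prop :=
  σ ≠ 0 ∧ σ ∈ affineRing K t ∧ ∀ v : Place K E, t ∉ v.toValuationSubring → v.ord σ = S * v.ord t

theorem exactGr_self {t : E} (ht : t ≠ 0) : ExactGr (K := K) t t 1 :=
  ⟨ht, self_mem_affineRing t, fun v _ => by simp⟩

theorem ExactGr.mem_gr {t σ : E} {S : ℕ} (h : ExactGr (K := K) t σ S) (ht : t ≠ 0) :
    σ ∈ gr K t S := by
  rw [TorLift.mem_gr]
  intro v
  right
  by_cases hv : t ∈ v.toValuationSubring
  · have h1 := h.2.1 v hv
    rw [mem_iff_ord v h.1] at h1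
    rw [mem_iff_ord v ht] at hv
    rw [max_eq_left (by omega)]
    simpa using h1
  · rw [h.2.2 v hv]
    rw [mem_iff_ord v ht] at hv
    rw [max_eq_right (by omega)]
    linarith

theorem ExactGr.mem_of_mul {t σ : E} {S : ℕ} (h : ExactGr (K := K) t σ S) (ht : t ≠ 0) {x : E}
    {R : ℕ} (hx : x ∈ affineRing K t) (hσx : σ * x ∈ gr K t (R + S)) : x ∈ gr K t R := by
  rcases eq_or_ne x 0 with rfl | hx0
  · exact zero_mem _
  rw [TorLift.mem_gr] at hσx ⊢
  intro v
  right
  by_cases hv : t ∈ v.toValuationSubring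
  · have h1 := hx v hv
    rw [mem_iff_ord v hx0] at h1
    rw [mem_iff_ord v ht] at hv
    rw [max_eq_left (by omega)]
    simpa using h1
  · have h1 := (hσx v).resolve_left (mul_ne_zero h.1 hx0)
    rw [v.ord_mul h.1 hx0, h.2.2 v hv] at h1
    rw [mem_iff_ord v ht] at hv
    rw [max_eq_right (by omega)] at h1 ⊢
    push_cast at h1
    nlinarith

/-- **Stabilisation.** -/
theorem exists_stab {t : E} (ht : Transcendental K t) :
    ∃ R₀ : ℕ, ∀ (σ : E) (S : ℕ), ExactGr (K := K) t σ S → ∀ R ≥ R₀, ∀ x ∈ gr K t (R + 1 + S),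
      ∃ y ∈ gr K t (R + 1), x - σ * y ∈ gr K t (R + S) := by
  have ht0 : t ≠ 0 := by rintro rfl; exact ht isAlgebraic_zero
  haveI : ∀ R, FiniteDimensional K (gr K t R) := fun R => finiteDimensional_riemannRochSpace _
  have haux : ∀ (σ : E) (S : ℕ), ExactGr (K := K) t σ S → ∀ R : ℕ,
      Module.finrank K (gr K t (R + 1)) + Module.finrank K (gr K t (R + S)) ≤
        Module.finrank K (gr K t (R + 1 + S)) + Module.finrank K (gr K t R) ∧
      (Module.finrank K (gr K t (R + 1)) + Module.finrank K (gr K t (R + S)) =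
        Module.finrank K (gr K t (R + 1 + S)) + Module.finrank K (gr K t R) →
        ∀ x ∈ gr K t (R + 1 + S), ∃ y ∈ gr K t (R + 1), x - σ * y ∈ gr K t (R + S)) := by
    intro σ S hσ R
    refine lin_aux (gr_mono (Nat.le_succ R)) (gr_mono (by omega)) (LinearMap.mulLeft K σ)
      (fun x hx => ?_) (fun x hx => ?_) (fun x hx h => ?_)
    · rw [LinearMap.mulLeft_apply, add_comm (R + 1) S]
      exact gr_mul (hσ.mem_gr ht0) hx
    · rw [LinearMap.mulLeft_apply, add_comm R S]
      exact gr_mul (hσ.mem_gr ht0) hx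
    · exact hσ.mem_of_mul ht0 (mem_affine_of_gr ht0 hx) h
  have hmono : ∀ R, Module.finrank K (gr K t R) ≤ Module.finrank K (gr K t (R + 1)) :=
    fun R => Submodule.finrank_mono (gr_mono (Nat.le_succ R))
  let w : ℕ → ℕ := fun R => Module.finrank K (gr K t (R + 1)) - Module.finrank K (gr K t R)
  have hw : Monotone w := by
    refine monotone_nat_of_le_succ fun R => ?_
    have h1 := (haux t 1 (exactGr_self ht0) R).1
    have h2 := hmono R
    have h3 := hmono (R + 1)
    simp only [w]
    omega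
  have hd : ∀ R, w R ≤ (Divisor.degree (poleDivisor (k := K) t)).toNat := by
    intro R
    have h1 := finrank_add_le (R • poleDivisor (k := K) t) (poleDivisor t) (poleDivisor_nonneg t)
    have h2 := pos_of_nonneg_degree _ (poleDivisor_nonneg (k := K) t)
    have h3 : R • poleDivisor (k := K) t + poleDivisor t = (R + 1) • poleDivisor t := by
      rw [add_smul, one_smul]
    rw [h3] at h1
    have h4 : ((Divisor.degree (poleDivisor (k := K) t)).toNat : ℤ) =
      Divisor.degree (poleDivisor (k := K) t) := Int.toNat_of_nonneg h2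
    have h5 : (Module.finrank K (gr K t (R + 1)) : ℤ) ≤ Module.finrank K (gr K t R) +
      Divisor.degree (poleDivisor (k := K) t) := h1
    simp only [w]
    omega
  obtain ⟨R₀, hR₀⟩ := exists_stable hw hd
  refine ⟨R₀, fun σ S hσ R hR => (haux σ S hσ R).2 ?_⟩
  have h1 := hR₀ R hR
  have h2 := hR₀ (R + S) (by omega)
  have h3 := hmono R
  have h4 := hmono (R + S)
  simp only [w] at h1 h2
  rw [show R + S + 1 = R + 1 + S by omega] at h2 h4
  omega

/-- division by a function of exact growth -/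
theorem exists_division {t : E} (ht : Transcendental K t) :
    ∃ R₀ : ℕ, ∀ (σ : E) (S : ℕ), ExactGr (K := K) t σ S → ∀ x ∈ affineRing K t,
      ∃ y ∈ affineRing K t, x - σ * y ∈ gr K t (R₀ + S) := by
  have ht0 : t ≠ 0 := by rintro rfl; exact ht isAlgebraic_zero
  obtain ⟨R₀, hR₀⟩ := exists_stab ht
  refine ⟨R₀, fun σ S hσ x hx => ?_⟩
  have main : ∀ m : ℕ, ∀ x ∈ gr K t (R₀ + m + S), ∃ y ∈ affineRing K t,
      x - σ * y ∈ gr K t (R₀ + S) := by
    intro m
    induction m with
    | zero => intro x hx; exact ⟨0, zero_mem _, by rw [mul_zero, sub_zero]; exact hx⟩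
    | succ m ih =>
      intro x hx
      obtain ⟨y, hy, hxy⟩ := hR₀ σ S hσ (R₀ + m) (by omega) x hx
      obtain ⟨z, hz, hz'⟩ := ih _ hxy
      refine ⟨y + z, add_mem (mem_affine_of_gr ht0 hy) hz, ?_⟩
      have e : x - σ * (y + z) = x - σ * y - σ * z := by ring
      rw [e]
      exact hz'
  obtain ⟨R, hR⟩ := exists_mem_gr ht0 hx
  exact main R x (gr_mono (by omega) hR)

end Gr

end Fermat.Agent.TorLift
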