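import Fermat.Agent.TorLift.Growth

/-!
# Jets of functions of bounded growth
-/

set_option autoImplicit false
set_option linter.unusedSectionVars false
set_option linter.style.haveILetI false

noncomputable section

namespace Fermat.Agent.TorLift

open AlgebraicCurve Fermat.Agent.Curves Fermat.Agent.GoodRed Polynomial WithZero
open Fermat.Agent.Models

variable {K E : Type*} [Field K] [Field E] [Algebra K E] [IsAlgClosed K] [IsFunctionField K E]

/-- functions of bounded growth are combinations of functions of small growth -/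
theorem exists_decomp {t : E} (ht : Transcendental K t) :
    ∃ R₀ : ℕ, ∀ s : ℕ, ∀ x ∈ gr K t (R₀ + s), ∃ y : ℕ → E, (∀ b, y b ∈ gr K t R₀) ∧
      x = ∑ b ∈ Finset.range (s + 1), t ^ b * y b := by
  have ht0 : t ≠ 0 := by rintro rfl; exact ht isAlgebraic_zero
  obtain ⟨R₀, hR₀⟩ := exists_stab ht
  refine ⟨R₀ + 1, fun s => ?_⟩
  induction s with
  | zero =>
    intro x hx
    exact ⟨fun _ => x, fun _ => hx, by simp⟩
  | succ s ih =>
    intro x hx
    obtain ⟨y, hy, hxy⟩ := hR₀ t 1 (exactGr_self ht0) (R₀ + s) (by omega) x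
      (by convert hx using 2; omega)
    obtain ⟨a, ha, ha'⟩ := ih _ (by convert hxy using 2; omega)
    obtain ⟨b, hb, hb'⟩ := ih y (by convert hy using 2; omega)
    refine ⟨fun i => (if i < s + 1 then a i else 0) + (if i = 0 then 0 else b (i - 1)),
      fun i => ?_, ?_⟩
    · refine add_mem ?_ ?_
      · split_ifs
        · exact ha i
        · exact zero_mem _
      · split_ifs
        · exact zero_mem _
        · exact hb _
    · have e : x = (x - t * y) + t * y := by ring
      rw [e, ha', hb']
      simp only [mul_add, Finset.sum_add_distrib]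
      congr 1
      · rw [Finset.sum_range_succ _ (s + 1), if_neg (lt_irrefl _), mul_zero, add_zero]
        refine Finset.sum_congr rfl fun i hi => ?_
        rw [if_pos (Finset.mem_range.mp hi)]
      · rw [Finset.sum_range_succ' _ (s + 1), if_pos rfl, mul_zero, add_zero, Finset.mul_sum]
        refine Finset.sum_congr rfl fun i _ => ?_
        rw [if_neg (Nat.succ_ne_zero i), Nat.add_sub_cancel, pow_succ]
        ring

/-- the ideal of a place -/
def plI (t : E) (v : Place K E) (hv : t ∈ v.toValuationSubring) : Ideal (affineRing K t) where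
  carrier := {x | Van v 1 (x : E)}
  add_mem' hx hy := hx.add hy
  zero_mem' := van_z v 1
  smul_mem' a x hx := by
    show Van v 1 ((a : E) * (x : E))
    exact hx.mul_left (a.2 v hv)

theorem mem_plI {t : E} {v : Place K E} {hv : t ∈ v.toValuationSubring} {x : affineRing K t} :
    x ∈ plI t v hv ↔ Van v 1 (x : E) := Iff.rfl

/-- functions vanishing to order `n` -/
def vanI (t : E) (v : Place K E) (hv : t ∈ v.toValuationSubring) (n : ℕ) :
    Ideal (affineRing K t) where
  carrier := {x : affineRing K t | Van v n (x : E)}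
  add_mem' hx hy := hx.add hy
  zero_mem' := van_z v n
  smul_mem' a x hx := by
    show Van v n ((a : E) * (x : E))
    exact Van.mul_left (a.2 v hv) hx

theorem plI_pow_le {t : E} {v : Place K E} {hv : t ∈ v.toValuationSubring} (n : ℕ) :
    plI t v hv ^ n ≤ vanI t v hv n := by
  induction n with
  | zero =>
    intro x _
    show Van v 0 (x : E)
    rw [van_zero_iff]
    exact x.2 v hv
  | succ n ih =>
    rw [pow_succ, Ideal.mul_le]
    intro r hr s hs
    exact Van.mul (show Van v n (r : E) from ih hr) (show Van v 1 (s : E) from hs)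

theorem mem_plI_pow {t : E} {v : Place K E} {hv : t ∈ v.toValuationSubring} {n : ℕ}
    {x : affineRing K t} (hx : x ∈ plI t v hv ^ n) : Van v n (x : E) := plI_pow_le n hx

theorem plI_isMaximal (t : E) (v : Place K E) (hv : t ∈ v.toValuationSubring) :
    (plI t v hv).IsMaximal := by
  let φ := valueHom v (affineRing K t) (fun x hx => hx v hv)
  have h1 : plI t v hv = RingHom.ker φ.toRingHom := by
    ext x
    rw [mem_plI, van_one_iff (x.2 v hv), RingHom.mem_ker]
    rfl
  rw [h1]
  refine RingHom.ker_isMaximal_of_surjective _ fun c => ⟨algebraMap K _ c, ?_⟩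
  show value v (algebraMap K E c) = c
  exact value_algebraMap v c

/-- **Chinese remainder theorem** -/
theorem exists_crt {t : E} (ht : Transcendental K t) {I : Type*} [Fintype I]
    (v : I → Place K E) (hinj : Function.Injective v) (hv : ∀ i, t ∈ (v i).toValuationSubring)
    (ν : I → ℕ) (a : I → E) (ha : ∀ i, a i ∈ affineRing K t) :
    ∃ y ∈ affineRing K t, ∀ i, Van (v i) (ν i) (y - a i) := by
  classical
  have hmax := fun i => plI_isMaximal t (v i) (hv i)
  have hne : ∀ i j, i ≠ j → plI t (v i) (hv i) ≠ plI t (v j) (hv j) := by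
    intro i j hij h
    apply hij
    apply hinj
    refine eq_of_affineRing ht (hv i) (hv j) fun x hx hx1 => ?_
    have h1 : (⟨x, hx⟩ : affineRing K t) ∈ plI t (v j) (hv j) := by
      rw [mem_plI, van_one_iff (hx _ (hv j)), value_eq_zero_iff _ (hx _ (hv j))]
      exact hx1
    rw [← h, mem_plI, van_one_iff (hx _ (hv i)), value_eq_zero_iff _ (hx _ (hv i))] at h1
    exact h1
  have hcop : Pairwise (Function.onFun IsCoprime fun i => plI t (v i) (hv i) ^ (ν i)) := by
    intro i j hij
    haveI := hmax i
    haveI := hmax j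
    exact (Ideal.isCoprime_of_isMaximal (hne i j hij)).pow
  obtain ⟨y, hy⟩ := Ideal.pi_mkQ_surjective hcop fun i => Ideal.Quotient.mk _ ⟨a i, ha i⟩
  refine ⟨y, y.2, fun i => ?_⟩
  have h1 := congrFun hy i
  have h2 : y - ⟨a i, ha i⟩ ∈ plI t (v i) (hv i) ^ (ν i) :=
    Ideal.Quotient.eq.mp h1
  exact mem_plI_pow h2

/-- **Jets by functions of bounded growth.** -/
theorem jets_of_division {t : E} (ht : Transcendental K t) {R₀ : ℕ}
    (hR₀ : ∀ (σ : E) (S : ℕ), ExactGr (K := K) t σ S → ∀ x ∈ affineRing K t,
      ∃ y ∈ affineRing K t, x - σ * y ∈ gr K t (R₀ + S))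
    {I : Type*} [Fintype I] (v : I → Place K E) (hinj : Function.Injective v)
    (hv : ∀ i, t ∈ (v i).toValuationSubring) (c : I → K)
    (hc : ∀ i, (v i).ord (t - algebraMap K E (c i)) = 1) (ν : I → ℕ) {σ : E} {S : ℕ}
    (hσ : ExactGr (K := K) t σ S) (hσv : ∀ i, Van (v i) (ν i) σ) (x : I → E)
    (hx : ∀ i, x i ∈ (v i).toValuationSubring) :
    ∃ δ ∈ gr K t (R₀ + S), ∀ i, Van (v i) (ν i) (δ - x i) := by
  choose p hp using fun i => exists_taylor_poly (hc i) (ν i) (x i) (hx i)
  have hpa : ∀ i, aeval t (p i) ∈ affineRing K t := fun i =>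
    (Algebra.adjoin_le (S := affineRing K t) (Set.singleton_subset_iff.mpr
      (self_mem_affineRing t))) (aeval_mem_adjoin_singleton K t)
  obtain ⟨y, hy, hy'⟩ := exists_crt ht v hinj hv ν (fun i => aeval t (p i)) hpa
  obtain ⟨z, hz, hz'⟩ := hR₀ σ S hσ y hy
  refine ⟨y - σ * z, hz', fun i => ?_⟩
  have e : y - σ * z - x i = (y - aeval t (p i)) - (x i - aeval t (p i)) - z * σ := by ring
  rw [e]
  exact ((hy' i).sub (hp i)).sub ((hσv i).mul_left (hz (v i) (hv i)))

/-- products of linear factors at infinity -/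
theorem ord_prod_inf {t : E} (ht : Transcendental K t) {P : Place K E}
    (hP : t ∉ P.toValuationSubring) {ι : Type*} (s : Finset ι) (c : ι → K) :
    P.ord (∏ i ∈ s, (t - algebraMap K E (c i))) = s.card * P.ord t := by
  have ht0 : t ≠ 0 := by rintro rfl; exact ht isAlgebraic_zero
  rw [mem_iff_ord P ht0] at hP
  rw [ord_prod P s _ fun i _ => sub_algebraMap_ne_zero ht (c i), Finset.sum_congr rfl
    (g := fun _ => P.ord t) fun i _ => ?_, Finset.sum_const, nsmul_eq_mul]
  rw [sub_eq_add_neg, ← map_neg]
  refine (ord_add_eq_left P ht0 ?_).2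
  by_cases hc : algebraMap K E (-c i) = 0
  · exact Or.inl hc
  · right
    rw [ord_algebraMap]
    omega

/-- products of linear factors at finite places -/
theorem ord_prod_nonneg {t : E} (ht : Transcendental K t) {P : Place K E}
    (hP : t ∈ P.toValuationSubring) {ι : Type*} (s : Finset ι) (c : ι → K) :
    0 ≤ P.ord (∏ i ∈ s, (t - algebraMap K E (c i))) := by
  rw [ord_prod P s _ fun i _ => sub_algebraMap_ne_zero ht (c i)]
  exact Finset.sum_nonneg fun i _ => ord_sub_nonneg ht hP (c i)

theorem ord_prod_zero {t : E} (ht : Transcendental K t) {P : Place K E}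
    (hP : t ∈ P.toValuationSubring) {ι : Type*} (s : Finset ι) (c : ι → K)
    (h : ∀ i ∈ s, value P t ≠ c i) :
    P.ord (∏ i ∈ s, (t - algebraMap K E (c i))) = 0 := by
  rw [ord_prod P s _ fun i _ => sub_algebraMap_ne_zero ht (c i)]
  refine Finset.sum_eq_zero fun i hi => ?_
  have h1 := ord_sub_nonneg ht hP (c i)
  have h2 := (ord_sub_pos_iff ht hP (c i)).not.mpr (h i hi)
  omega

theorem one_le_ord_prod {t : E} (ht : Transcendental K t) {P : Place K E}
    (hP : t ∈ P.toValuationSubring) {ι : Type*} (s : Finset ι) (c : ι → K) {i : ι} (hi : i ∈ s)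
    (h : value P t = c i) :
    1 ≤ P.ord (∏ i ∈ s, (t - algebraMap K E (c i))) := by
  rw [ord_prod P s _ fun i _ => sub_algebraMap_ne_zero ht (c i)]
  have h1 := (ord_sub_pos_iff ht hP (c i)).mpr h
  exact (show 1 ≤ P.ord (t - algebraMap K E (c i)) from h1).trans
    (Finset.single_le_sum (f := fun i => P.ord (t - algebraMap K E (c i)))
      (fun i _ => ord_sub_nonneg ht hP (c i)) hi)

theorem ord_prod_eq_one {t : E} (ht : Transcendental K t) {P : Place K E}
    (hP : t ∈ P.toValuationSubring) (h1 : P.ord (t - algebraMap K E (value P t)) = 1)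
    (T : Finset K) (h : value P t ∈ T) :
    P.ord (∏ c ∈ T, (t - algebraMap K E c)) = 1 := by
  classical
  rw [ord_prod P T _ fun i _ => sub_algebraMap_ne_zero ht i, Finset.sum_eq_single (value P t)]
  · exact h1
  · intro c _ hc
    have h1 := ord_sub_nonneg ht hP c
    have h2 := (ord_sub_pos_iff ht hP c).not.mpr (Ne.symm hc)
    omega
  · exact fun h' => absurd h h'

end Fermat.Agent.TorLift
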