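import Fermat.Agent.TorLift.Jets
import Fermat.Agent.Models.Adjust
import Fermat.Agent.Models.Units

/-!
# Lifting functions of bounded growth
-/

set_option autoImplicit false
set_option linter.unusedSectionVars false
set_option linter.style.haveILetI false

noncomputable section

namespace Fermat.Agent.TorLift

open AlgebraicCurve Fermat.Agent.Curves Fermat.Agent.GoodRed Polynomial WithZero
open Fermat.Agent.Models

variable {k κ : Type*} [Field k] [Field κ] {B : Res k κ} {F 𝓕 : Type*} [Field F] [Algebra k F]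
  [Field 𝓕] [Algebra κ 𝓕]

/-- a single component -/
abbrev one (C₀ : Comp B F 𝓕) : ∀ _ : Unit, Comp B F 𝓕 := fun _ => C₀

theorem incomp_one (C₀ : Comp B F 𝓕) : Incomp (one C₀) := fun _ _ h => absurd rfl h

variable [IsAlgClosed k] [IsAlgClosed κ] [IsFunctionField k F] [IsFunctionField κ 𝓕]
  (C₀ : Comp B F 𝓕)

/-- liftable with bounded growth -/
def Lft (t : F) (R : ℕ) (x : 𝓕) : Prop := ∃ y ∈ gr k t R, y ∈ C₀.O ∧ C₀.r y = x

variable {C₀} {t : F}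

theorem Lft.add {R : ℕ} {x y : 𝓕} (hx : Lft C₀ t R x) (hy : Lft C₀ t R y) :
    Lft C₀ t R (x + y) := by
  obtain ⟨a, ha, ha', rfl⟩ := hx
  obtain ⟨b, hb, hb', rfl⟩ := hy
  exact ⟨a + b, add_mem ha hb, add_mem ha' hb', Res.r_add ha' hb'⟩

theorem Lft.zero (R : ℕ) : Lft C₀ t R (0 : 𝓕) := ⟨0, zero_mem _, zero_mem _, Res.r_zero⟩

theorem Lft.smul {R : ℕ} {x : 𝓕} (hx : Lft C₀ t R x) (c : κ) :
    Lft C₀ t R (c • x) := by
  obtain ⟨a, ha, ha', rfl⟩ := hx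
  obtain ⟨d, hd, rfl⟩ := B.r_surjective c
  refine ⟨d • a, Submodule.smul_mem _ _ ha, ?_, ?_⟩
  · rw [Algebra.smul_def]; exact mul_mem (C₀.algebraMap_mem d hd) ha'
  · rw [Algebra.smul_def, Algebra.smul_def, Res.r_mul (C₀.algebraMap_mem d hd) ha',
      C₀.r_algebraMap d hd]

theorem Lft.mono {R R' : ℕ} (h : R ≤ R') {x : 𝓕} (hx : Lft C₀ t R x) : Lft C₀ t R' x := by
  obtain ⟨a, ha, ha'⟩ := hx
  exact ⟨a, gr_mono h ha, ha'⟩

theorem Lft.pow_mul (ht : t ∈ C₀.O) {R : ℕ} {x : 𝓕} (hx : Lft C₀ t R x) (b : ℕ) :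
    Lft C₀ t (R + b) (C₀.r t ^ b * x) := by
  obtain ⟨a, ha, ha', rfl⟩ := hx
  refine ⟨t ^ b * a, ?_, mul_mem (pow_mem ht b) ha', ?_⟩
  · rw [add_comm]; exact gr_mul (pow_mem_gr t b) ha
  · rw [Res.r_mul (pow_mem ht b) ha', Res.r_pow ht]

theorem Lft.sum {R : ℕ} {α : Type*} (s : Finset α) {x : α → 𝓕}
    (h : ∀ i ∈ s, Lft C₀ t R (x i)) : Lft C₀ t R (∑ i ∈ s, x i) := by
  classical
  induction s using Finset.induction_on with
  | empty => exact Lft.zero R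
  | insert i s hi ih =>
    rw [Finset.sum_insert hi]
    exact (h i (Finset.mem_insert_self _ _)).add (ih fun j hj => h j (Finset.mem_insert_of_mem hj))

theorem exists_lft (ht : IsGood (one C₀) t) (hS : Surj (one C₀) t) {x : 𝓕}
    (hx : x ∈ affineRing κ (C₀.r t)) : ∃ R, Lft C₀ t R x := by
  have ht0 : t ≠ 0 := Res.ne_zero_of_r (ht.r_ne_zero ())
  obtain ⟨y, hy, rfl⟩ := hS () x hx
  obtain ⟨R, hR⟩ := exists_mem_gr (K := k) ht0 (x := y) hy.1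
  exact ⟨R, y, hR, hy.2 (), rfl⟩

theorem exists_lft' (ht : IsGood (one C₀) t) (hS : Surj (one C₀) t⁻¹) {R₀ : ℕ} {x : 𝓕}
    (hx : x ∈ gr κ (C₀.r t) R₀) :
    ∃ S₀, ∀ A, S₀ ≤ A → Lft C₀ t (R₀ + A) (C₀.r t ^ A * x) := by
  have hrt : C₀.r t ≠ 0 := ht.r_ne_zero ()
  have ht0 : t ≠ 0 := Res.ne_zero_of_r hrt
  have htO : t ∈ C₀.O := ht.mem ()
  rw [mem_gr_iff hrt] at hx
  obtain ⟨y, hy, hyr⟩ := hS () (x * (C₀.r t)⁻¹ ^ R₀) (by
    show x * (C₀.r t)⁻¹ ^ R₀ ∈ affineRing κ (C₀.r t⁻¹)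
    rw [Res.r_inv hrt]; exact hx.2)
  have hyr' : C₀.r y = x * (C₀.r t)⁻¹ ^ R₀ := hyr
  obtain ⟨S₀, hS₀⟩ := exists_mem_gr (K := k) (inv_ne_zero ht0) (x := y) hy.1
  refine ⟨S₀, fun A hA => ?_⟩
  have h1 : y ∈ gr k t⁻¹ (R₀ + A) := gr_mono (by omega) hS₀
  rw [mem_gr_iff (inv_ne_zero ht0), inv_inv] at h1
  have hyO : y ∈ C₀.O := hy.2 ()
  refine ⟨t ^ (R₀ + A) * y, ?_, mul_mem (pow_mem htO _) hyO, ?_⟩
  · rw [mem_gr_iff ht0]
    refine ⟨by rw [mul_comm]; exact h1.2, ?_⟩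
    have e : t ^ (R₀ + A) * y * t⁻¹ ^ (R₀ + A) = y := by
      rw [mul_right_comm, ← mul_pow, mul_inv_cancel₀ ht0, one_pow, one_mul]
    rw [e]
    exact hy.1
  · rw [Res.r_mul (pow_mem htO _) hyO, Res.r_pow htO, hyr', inv_pow, pow_add]
    field_simp

/-- **Lifting of functions of bounded growth.** -/
theorem exists_lift_gr (ht : IsGood (one C₀) t) (hS : Surj (one C₀) t)
    (hS' : Surj (one C₀) t⁻¹) :
    ∃ R₁ : ℕ, ∀ R ≥ R₁, ∀ x ∈ gr κ (C₀.r t) R, Lft C₀ t R x := by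
  classical
  have htO : t ∈ C₀.O := ht.mem ()
  have hrt : C₀.r t ≠ 0 := ht.r_ne_zero ()
  obtain ⟨R₀, hR₀⟩ := exists_decomp (K := κ) (ht.trans ())
  haveI : FiniteDimensional κ (gr κ (C₀.r t) R₀) := finiteDimensional_riemannRochSpace _
  obtain ⟨s, hs⟩ : (gr κ (C₀.r t) R₀).FG := Module.Finite.iff_fg.mp inferInstance
  -- a uniform bound
  have h1 : ∀ x ∈ gr κ (C₀.r t) R₀, ∃ A₀, ∀ A ≥ A₀, Lft C₀ t (R₀ + A) x ∧
      Lft C₀ t (R₀ + A) (C₀.r t ^ A * x) := by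
    intro x hx
    obtain ⟨R, hR⟩ := exists_lft ht hS (mem_affine_of_gr hrt hx)
    obtain ⟨S, hS⟩ := exists_lft' ht hS' hx
    exact ⟨R + S, fun A hA => ⟨hR.mono (by omega), hS A (by omega)⟩⟩
  have hmem : ∀ x ∈ s, x ∈ gr κ (C₀.r t) R₀ := fun x hx => by
    rw [← hs]; exact Submodule.subset_span hx
  choose! A₀ hA₀ using h1
  set A := s.sup A₀ with hA
  have h2 : ∀ x ∈ gr κ (C₀.r t) R₀, Lft C₀ t (R₀ + A) x ∧
      Lft C₀ t (R₀ + A) (C₀.r t ^ A * x) := by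
    intro x hx
    rw [← hs] at hx
    induction hx using Submodule.span_induction with
    | mem x hx => exact hA₀ x (hmem x hx) A (Finset.le_sup hx)
    | zero => rw [mul_zero]; exact ⟨Lft.zero _, Lft.zero _⟩
    | add x y _ _ hx hy => rw [mul_add]; exact ⟨hx.1.add hy.1, hx.2.add hy.2⟩
    | smul c x _ hx => rw [mul_smul_comm]; exact ⟨hx.1.smul c, hx.2.smul c⟩
  refine ⟨R₀ + 2 * A, fun R hR x hx => ?_⟩
  obtain ⟨σ, rfl⟩ : ∃ σ, R = R₀ + σ := ⟨R - R₀, by omega⟩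
  obtain ⟨y, hy, rfl⟩ := hR₀ σ x hx
  refine Lft.sum _ fun b hb => ?_
  rw [Finset.mem_range] at hb
  by_cases hbA : b + A ≤ σ
  · exact ((h2 _ (hy b)).1.pow_mul htO b).mono (by omega)
  · have e : C₀.r t ^ b * y b = C₀.r t ^ (b - A) * (C₀.r t ^ A * y b) := by
      rw [← mul_assoc, ← pow_add]
      congr 2
      omega
    rw [e]
    exact ((h2 _ (hy b)).2.pow_mul htO (b - A)).mono (by omega)

end Fermat.Agent.TorLift
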