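import Fermat.Agent.TorLift.Newton2

/-!
# Local rings at unramified points
-/

set_option autoImplicit false
set_option linter.unusedSectionVars false
set_option linter.style.haveILetI false

noncomputable section

namespace Fermat.Agent.TorLift

open AlgebraicCurve Fermat.Agent.Curves Fermat.Agent.GoodRed Polynomial WithZero
open Fermat.Agent.Models

variable {k κ : Type*} [Field k] [Field κ] {B : Res k κ} {F 𝓕 : Type*} [Field F] [Algebra k F]
  [Field 𝓕] [Algebra κ 𝓕] [IsAlgClosed k] [IsAlgClosed κ] [IsFunctionField k F]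
  [IsFunctionField κ 𝓕] {C₀ : Comp B F 𝓕} {t : F}

variable (C₀) in
/-- the local ring at a point -/
def LL (t : F) (M : Ideal (chart (one C₀) t)) : Subring F where
  carrier := {x | x ∈ C₀.O ∧ ∀ Q ∈ gen t M, x ∈ Q.toValuationSubring}
  mul_mem' hx hy := ⟨mul_mem hx.1 hy.1, fun Q hQ => mul_mem (hx.2 Q hQ) (hy.2 Q hQ)⟩
  add_mem' hx hy := ⟨add_mem hx.1 hy.1, fun Q hQ => add_mem (hx.2 Q hQ) (hy.2 Q hQ)⟩
  one_mem' := ⟨one_mem _, fun _ _ => one_mem _⟩
  zero_mem' := ⟨zero_mem _, fun _ _ => zero_mem _⟩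
  neg_mem' hx := ⟨neg_mem hx.1, fun Q hQ => neg_mem (hx.2 Q hQ)⟩

theorem chart_le_LL {M : Ideal (chart (one C₀) t)} {x : F} (hx : x ∈ chart (one C₀) t) :
    x ∈ LL C₀ t M := ⟨hx.2 (), fun Q hQ => hx.1 Q hQ.1⟩

/-- the local data at an unramified point -/
theorem loc_of_unram (hB : B.RankOne) (ht : IsGood (one C₀) t) (hS : Surj (one C₀) t)
    {M : Ideal (chart (one C₀) t)} {P : Place κ 𝓕} (hP : P ∈ spec t M ()) {c : k} (hc : c ∈ B.O)
    (hord : P.ord (C₀.r t - algebraMap κ 𝓕 (B.r c)) = 1) :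
    Loc C₀ (LL C₀ t M) P (t - algebraMap k F c) (gen t M) := by
  classical
  have hC := incomp_one C₀
  have hM : IsPoint t M := isPoint_of_spec hB hC ht ⟨P, hP⟩
  have htO : t ∈ C₀.O := ht.mem ()
  have hloc : ∀ x ∈ LL C₀ t M, x ∈ loc t M hM.isMaximal.isPrime := fun x hx =>
    mem_loc_of hB hC ht hS hM hx.2 fun _ _ => hx.1
  have hzr : ∀ a ∈ B.O, B.r a = 0 → C₀.r (t - algebraMap k F c - algebraMap k F a) =
      C₀.r t - algebraMap κ 𝓕 (B.r c) := by
    intro a ha har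
    rw [Res.r_sub (sub_mem htO (C₀.algebraMap_mem c hc)) (C₀.algebraMap_mem a ha),
      C₀.r_algebraMap_eq_zero ha har, sub_zero, Res.r_sub htO (C₀.algebraMap_mem c hc),
      C₀.r_algebraMap c hc]
  have hz0 : C₀.r t - algebraMap κ 𝓕 (B.r c) ≠ 0 := by
    intro h0; rw [h0] at hord; simp at hord
  refine ⟨fun a ha => ⟨C₀.algebraMap_mem a ha, fun Q _ => Q.algebraMap_mem' a⟩,
    fun x hx => loc_mem_O hB hC ht _ hP (hloc x hx), ?_, ?_, fun a ha har => ?_⟩
  · exact ⟨sub_mem htO (C₀.algebraMap_mem c hc),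
      fun Q hQ => sub_mem hQ.1 (Q.algebraMap_mem' c)⟩
  · rw [Res.r_sub htO (C₀.algebraMap_mem c hc), C₀.r_algebraMap c hc]
    exact hord
  · set w := t - algebraMap k F c - algebraMap k F a with hw
    have hwr : C₀.r w ≠ 0 := by rw [hzr a ha har]; exact hz0
    have hw0 : w ≠ 0 := Res.ne_zero_of_r hwr
    have hcons := local_conserve' hB hC ht hS hM hw0 fun _ _ => hwr
    rw [Fintype.sum_unique] at hcons
    have hcons' : cnt (gen t M) w = P.ord (C₀.r w) := by
      rw [hcons]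
      exact cnt_subsingleton (spec_subsingleton ht hS M ()) hP _
    rw [hzr a ha har, hord] at hcons'
    have hnn : ∀ Q ∈ gen t M, 0 ≤ Q.ord w := fun Q hQ => (mem_iff_ord Q hw0).mp
      (sub_mem (sub_mem hQ.1 (Q.algebraMap_mem' c)) (Q.algebraMap_mem' a))
    obtain ⟨Q, hQ, hQ1⟩ : ∃ Q ∈ gen t M, 1 ≤ Q.ord w := by
      by_contra! hne
      have h1 := cnt_eq_zero (S := gen t M) (x := w) fun Q hQ => by
        have := hne Q hQ
        have := hnn Q hQ
        omega
      rw [h1] at hcons'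
      exact zero_ne_one hcons'
    have hordQ := ord_eq_of_cnt_one hnn hcons'.le hQ hQ1
    refine ⟨Q, hQ, fun x hx => ?_, ?_, fun x hx m hm => ?_⟩
    · obtain ⟨h1, h2⟩ := loc_mem_place hB hC ht _ hQ (hloc x hx)
      exact ⟨h1, h2, loc_value_place hB hC ht _ hQ hP (hloc x hx)⟩
    · rw [hordQ Q hQ, if_pos rfl]
    · refine ⟨x / w ^ m, ⟨?_, fun Q' hQ' => ?_⟩, ?_⟩
      · rw [div_eq_mul_inv]
        exact mul_mem hx.1 (Res.inv_mem_of_r (Res.r_pow_ne_zero hwr m))
      · rcases eq_or_ne x 0 with rfl | hx0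
        · rw [zero_div]; exact zero_mem _
        have hwm : w ^ m ≠ 0 := pow_ne_zero m hw0
        rw [mem_iff_ord Q' (div_ne_zero hx0 hwm), ord_div Q' hx0 hwm, ord_pow, hordQ Q' hQ']
        have h3 := (mem_iff_ord Q' hx0).mp (hx.2 Q' hQ')
        split_ifs with h4
        · subst h4
          rw [van_iff hx0] at hm
          omega
        · omega
      · field_simp

end Fermat.Agent.TorLift
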