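import Fermat.Agent.TorLift.LiftGr
import Mathlib.Algebra.Polynomial.Identities

/-!
# Newton iteration
-/

set_option autoImplicit false
set_option linter.unusedSectionVars false
set_option linter.style.haveILetI false

noncomputable section

namespace Fermat.Agent.TorLift

open AlgebraicCurve Fermat.Agent.Curves Fermat.Agent.GoodRed Polynomial WithZero
open Fermat.Agent.Models

section Ap

variable {F : Type*} [Field F] (L : Subring F)

/-- the ideal generated by `p` and `q` -/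
def Ap (p q x : F) : Prop := ∃ y ∈ L, ∃ w ∈ L, x = p * y + q * w

variable {L} {p q : F}

theorem Ap.add {x y : F} (hx : Ap L p q x) (hy : Ap L p q y) : Ap L p q (x + y) := by
  obtain ⟨a, ha, b, hb, rfl⟩ := hx
  obtain ⟨c, hc, d, hd, rfl⟩ := hy
  exact ⟨a + c, add_mem ha hc, b + d, add_mem hb hd, by ring⟩

theorem Ap.neg {x : F} (hx : Ap L p q x) : Ap L p q (-x) := by
  obtain ⟨a, ha, b, hb, rfl⟩ := hx
  exact ⟨-a, neg_mem ha, -b, neg_mem hb, by ring⟩

theorem Ap.sub {x y : F} (hx : Ap L p q x) (hy : Ap L p q y) : Ap L p q (x - y) := by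
  rw [sub_eq_add_neg]; exact hx.add hy.neg

theorem Ap.mul_left {z x : F} (hz : z ∈ L) (hx : Ap L p q x) : Ap L p q (z * x) := by
  obtain ⟨a, ha, b, hb, rfl⟩ := hx
  exact ⟨z * a, mul_mem hz ha, z * b, mul_mem hz hb, by ring⟩

theorem Ap.zero : Ap L p q 0 := ⟨0, zero_mem _, 0, zero_mem _, by ring⟩

theorem Ap.sum {α : Type*} (s : Finset α) {x : α → F} (h : ∀ i ∈ s, Ap L p q (x i)) :
    Ap L p q (∑ i ∈ s, x i) := by
  classical
  induction s using Finset.induction_on with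
  | empty => exact Ap.zero
  | insert i s hi ih =>
    rw [Finset.sum_insert hi]
    exact (h i (Finset.mem_insert_self _ _)).add (ih fun j hj => h j (Finset.mem_insert_of_mem hj))

theorem Ap.left {y : F} (hy : y ∈ L) : Ap L p q (p * y) := ⟨y, hy, 0, zero_mem _, by ring⟩

theorem Ap.right {y : F} (hy : y ∈ L) : Ap L p q (q * y) := ⟨0, zero_mem _, y, hy, by ring⟩

theorem Ap.mono_right {q' x : F} (hx : Ap L p q x) {c : F} (hc : c ∈ L) (h : q = q' * c) :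
    Ap L p q' x := by
  obtain ⟨a, ha, b, hb, rfl⟩ := hx
  exact ⟨a, ha, c * b, mul_mem hc hb, by rw [h]; ring⟩

theorem Ap.congr_left {p' x : F} (hx : Ap L p q x) {c : F} (hc : c ∈ L) (h : p = p' + q * c) :
    Ap L p' q x := by
  obtain ⟨a, ha, b, hb, rfl⟩ := hx
  exact ⟨a, ha, c * a + b, add_mem (mul_mem hc ha) hb, by rw [h]; ring⟩

/-- binomial expansion in a subring -/
theorem exists_pow_add {x y : F} (hx : x ∈ L) (hy : y ∈ L) (n : ℕ) :
    ∃ g ∈ L, (x + y) ^ n = x ^ n + n * x ^ (n - 1) * y + g * y ^ 2 := by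
  obtain ⟨g, hg⟩ := Polynomial.powAddExpansion (⟨x, hx⟩ : L) (⟨y, hy⟩ : L) n
  exact ⟨g, g.2, by simpa using congrArg (Subtype.val) hg⟩

theorem exists_pow_add' {x y : F} (hx : x ∈ L) (hy : y ∈ L) (n : ℕ) :
    ∃ g ∈ L, (x + y) ^ n = x ^ n + y * g := by
  obtain ⟨g, hg, h⟩ := exists_pow_add hx hy n
  exact ⟨n * x ^ (n - 1) + g * y, add_mem (mul_mem (natCast_mem L n) (pow_mem hx _))
    (mul_mem hg hy), by rw [h]; ring⟩

end Ap

variable {k κ : Type*} [Field k] [Field κ] {B : Res k κ}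

section Common

theorem exists_common_finset {α : Type*} {π₀ : k} (h0 : π₀ ≠ 0) (hO : π₀ ∈ B.O)
    (hr : B.r π₀ = 0) (s : Finset α) (b : α → k) (hb : ∀ i ∈ s, b i ∈ B.O ∧ B.r (b i) = 0) :
    ∃ ϖ : k, ϖ ≠ 0 ∧ ϖ ∈ B.O ∧ B.r ϖ = 0 ∧ (∃ d ∈ B.O, π₀ = ϖ * d) ∧
      ∀ i ∈ s, ∃ d ∈ B.O, b i = ϖ * d := by
  classical
  induction s using Finset.induction_on with
  | empty => exact ⟨π₀, h0, hO, hr, ⟨1, one_mem _, by ring⟩, fun i hi => absurd hi (by simp)⟩
  | insert i s hi ih =>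
    obtain ⟨ϖ, h1, h2, h3, ⟨e, he, he'⟩, h4⟩ := ih fun j hj => hb j (Finset.mem_insert_of_mem hj)
    have hbi := hb i (Finset.mem_insert_self _ _)
    by_cases h : b i / ϖ ∈ B.O
    · refine ⟨ϖ, h1, h2, h3, ⟨e, he, he'⟩, fun j hj => ?_⟩
      rcases Finset.mem_insert.mp hj with rfl | hj
      · exact ⟨_, h, by field_simp⟩
      · exact h4 j hj
    · have hb0 : b i ≠ 0 := by
        intro h0
        apply h
        rw [h0, zero_div]
        exact zero_mem _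
      have h5 := Res.inv_mem_of_notMem (C := B) h
      have e1 : ϖ = b i * (b i / ϖ)⁻¹ := by field_simp
      refine ⟨b i, hb0, hbi.1, hbi.2, ⟨(b i / ϖ)⁻¹ * e, mul_mem h5 he, ?_⟩, fun j hj => ?_⟩
      · rw [he']
        conv_lhs => rw [e1]
        ring
      rcases Finset.mem_insert.mp hj with rfl | hj
      · exact ⟨1, one_mem _, by ring⟩
      · obtain ⟨d, hd, hd'⟩ := h4 j hj
        refine ⟨(b i / ϖ)⁻¹ * d, mul_mem h5 hd, ?_⟩
        rw [hd']
        conv_lhs => rw [e1]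
        ring

end Common

variable {F 𝓕 : Type*} [Field F] [Algebra k F] [Field 𝓕] [Algebra κ 𝓕]
  [IsAlgClosed k] [IsAlgClosed κ] [IsFunctionField k F] [IsFunctionField κ 𝓕]

/-- local data -/
structure Loc (C₀ : Comp B F 𝓕) (L : Subring F) (P : Place κ 𝓕) (z : F)
    (D : Set (Place k F)) : Prop where
  const : ∀ a ∈ B.O, algebraMap k F a ∈ L
  memO : ∀ x ∈ L, x ∈ C₀.O ∧ C₀.r x ∈ P.toValuationSubring
  z_mem : z ∈ L
  z_ord : P.ord (C₀.r z) = 1
  pl : ∀ a ∈ B.O, B.r a = 0 → ∃ Q ∈ D,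
    (∀ x ∈ L, x ∈ Q.toValuationSubring ∧ value Q x ∈ B.O ∧ B.r (value Q x) = value P (C₀.r x)) ∧
    Q.ord (z - algebraMap k F a) = 1 ∧
    ∀ x ∈ L, ∀ m : ℕ, Van Q m x → ∃ y ∈ L, x = (z - algebraMap k F a) ^ m * y

variable {C₀ : Comp B F 𝓕} {L : Subring F} {P : Place κ 𝓕} {z : F} {D : Set (Place k F)}

namespace Loc

theorem sub_mem (h : Loc C₀ L P z D) {a : k} (ha : a ∈ B.O) : z - algebraMap k F a ∈ L :=
  _root_.sub_mem h.z_mem (h.const a ha)

/-- one step of the Taylor expansion -/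
theorem step (h : Loc C₀ L P z D) {x : F} (hx : x ∈ L) :
    ∃ c ∈ B.O, B.r c = value P (C₀.r x) ∧ ∃ y ∈ L, x = algebraMap k F c + z * y := by
  obtain ⟨Q, -, h1, h2, h3⟩ := h.pl 0 (zero_mem _) Res.r_zero
  obtain ⟨h4, h5, h6⟩ := h1 x hx
  have h7 : x - algebraMap k F (value Q x) ∈ L := _root_.sub_mem hx (h.const _ h5)
  obtain ⟨y, hy, hxy⟩ := h3 _ h7 1 (by
    rw [van_one_iff (h1 _ h7).1, value_sub' Q h4 (Q.algebraMap_mem' _), value_algebraMap,
      sub_self])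
  refine ⟨_, h5, h6, y, hy, ?_⟩
  rw [map_zero, sub_zero, pow_one] at hxy
  rw [← hxy]
  ring

/-- Taylor expansion -/
theorem taylor (h : Loc C₀ L P z D) (ν : ℕ) : ∀ x ∈ L, ∃ c : ℕ → k, (∀ j, c j ∈ B.O) ∧
    ∃ y ∈ L, x = ∑ j ∈ Finset.range ν, algebraMap k F (c j) * z ^ j + z ^ ν * y := by
  induction ν with
  | zero =>
    intro x hx
    exact ⟨fun _ => 0, fun _ => zero_mem _, x, hx, by simp⟩
  | succ ν ih =>
    intro x hx
    obtain ⟨c, hc, y, hy, hxy⟩ := ih x hx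
    obtain ⟨a, ha, -, y', hy', hyy⟩ := h.step hy
    refine ⟨fun j => if j = ν then a else c j, fun j => ?_, y', hy', ?_⟩
    · dsimp only
      split_ifs
      · exact ha
      · exact hc j
    · dsimp only
      rw [Finset.sum_range_succ, if_pos rfl]
      have e : ∑ j ∈ Finset.range ν, algebraMap k F (if j = ν then a else c j) * z ^ j =
          ∑ j ∈ Finset.range ν, algebraMap k F (c j) * z ^ j := by
        refine Finset.sum_congr rfl fun j hj => ?_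
        rw [if_neg (Finset.mem_range.mp hj).ne]
      rw [e]
      conv_lhs => rw [hxy, hyy]
      ring

/-- functions whose residue vanishes to high order -/
theorem exists_of_van (h : Loc C₀ L P z D) (ν : ℕ) : ∀ x ∈ L, Van P ν (C₀.r x) →
    ∃ b ∈ B.O, B.r b = 0 ∧ Ap L (z ^ ν) (algebraMap k F b) x := by
  induction ν with
  | zero =>
    intro x hx _
    exact ⟨0, zero_mem _, Res.r_zero, x, hx, 0, zero_mem _, by simp⟩
  | succ ν ih =>
    intro x hx hv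
    obtain ⟨c, hc, hcr, y, hy, rfl⟩ := h.step hx
    have hc0 : B.r c = 0 := by
      rw [hcr]
      exact (van_one_iff hv.mem).mp (hv.mono (Nat.succ_le_succ (Nat.zero_le ν)))
    have hyO := (h.memO y hy).1
    have hzO := (h.memO z h.z_mem).1
    have e : C₀.r (algebraMap k F c + z * y) = C₀.r z * C₀.r y := by
      rw [Res.r_add (C₀.algebraMap_mem c hc) (mul_mem hzO hyO), C₀.r_algebraMap_eq_zero hc hc0,
        zero_add, Res.r_mul hzO hyO]
    rw [e] at hv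
    obtain ⟨b, hb, hb0, hy'⟩ := ih y hy (van_of_mul h.z_ord hv)
    obtain ⟨v, hv1, w, hw, hyw⟩ := hy'
    rcases eq_or_ne b 0 with rfl | hbne
    · refine ⟨c, hc, hc0, v, hv1, 1, one_mem _, ?_⟩
      rw [hyw, map_zero]
      ring
    · obtain ⟨ϖ, h1, h2, h3, ⟨d, hd, hd'⟩, h4⟩ := exists_common_finset (B := B) hbne hb hb0
        {c} id (by simpa using ⟨hc, hc0⟩)
      obtain ⟨e', he', he''⟩ := h4 c (by simp)
      refine ⟨ϖ, h2, h3, v, hv1, algebraMap k F e' + algebraMap k F d * (z * w),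
        add_mem (h.const _ he') (mul_mem (h.const _ hd) (mul_mem h.z_mem hw)), ?_⟩
      have e2 : c = ϖ * e' := he''
      rw [hyw, hd', e2, map_mul, map_mul]
      ring

/-- **Newton step** at a movable point. -/
theorem newton_mov (h : Loc C₀ L P z D) {ν : ℕ} (hν : ((ν + 1 : ℕ) : κ) ≠ 0) {a a' ϖ : k}
    (hϖO : ϖ ∈ B.O) (hϖr : B.r ϖ = 0) (ha' : a' ∈ B.O) (ha : a = ϖ * a') {n : ℕ} {s x y : F}
    (hx : x ∈ L) (hy : y ∈ L)
    (hs : s = (z - algebraMap k F a) ^ (ν + 1) * y + algebraMap k F (ϖ ^ (n + 1)) * x)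
    (hrs : C₀.r s ≠ 0) (hord : P.ord (C₀.r s) = ν + 1) {δ : F}
    (hδ : Ap L (z ^ ν) (algebraMap k F ϖ) (δ - x)) :
    ∃ α ∈ B.O, Ap L ((z - algebraMap k F (a + ϖ ^ (n + 1) * α)) ^ (ν + 1))
      (algebraMap k F (ϖ ^ (n + 2))) (s - algebraMap k F (ϖ ^ (n + 1)) * δ) := by
  obtain ⟨w, hw, w', hw', hδ⟩ := hδ
  have haO : a ∈ B.O := by rw [ha]; exact mul_mem hϖO ha'
  have har : B.r a = 0 := by rw [ha, Res.r_mul hϖO ha', hϖr, zero_mul]
  have hϖn : B.r (ϖ ^ (n + 1)) = 0 := by rw [Res.r_pow hϖO, hϖr, zero_pow (Nat.succ_ne_zero n)]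
  -- `y` is a unit
  obtain ⟨Q, -, hQ1, hQ2, hQ3⟩ := h.pl 0 (zero_mem _) Res.r_zero
  have hzO := (h.memO z h.z_mem).1
  have hyO := (h.memO y hy).1
  have hxO := (h.memO x hx).1
  have hrs' : C₀.r s = C₀.r z ^ (ν + 1) * C₀.r y := by
    have h1 : z - algebraMap k F a ∈ C₀.O := _root_.sub_mem hzO (C₀.algebraMap_mem a haO)
    rw [hs, Res.r_add (mul_mem (pow_mem h1 _) hyO) (mul_mem (C₀.algebraMap_mem _ (pow_mem hϖO _))
      hxO), Res.r_mul (pow_mem h1 _) hyO, Res.r_mul (C₀.algebraMap_mem _ (pow_mem hϖO _)) hxO,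
      C₀.r_algebraMap_eq_zero (pow_mem hϖO _) hϖn, zero_mul, add_zero, Res.r_pow h1,
      Res.r_sub hzO (C₀.algebraMap_mem a haO), C₀.r_algebraMap_eq_zero haO har, sub_zero]
  have hz0 : C₀.r z ≠ 0 := by intro h0; have := h.z_ord; rw [h0] at this; simp at this
  have hy0 : C₀.r y ≠ 0 := by
    intro h0
    rw [hrs', h0, mul_zero] at hrs
    exact hrs rfl
  have hyord : P.ord (C₀.r y) = 0 := by
    rw [hrs', P.ord_mul (pow_ne_zero _ hz0) hy0, ord_pow, h.z_ord] at hord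
    push_cast at hord
    linarith
  obtain ⟨hy1, hy2, hy3⟩ := hQ1 y hy
  obtain ⟨hw1, hw2, -⟩ := hQ1 w hw
  have hη : B.r (value Q y) ≠ 0 := by
    rw [hy3, value_ne_zero_iff hy0 (h.memO y hy).2]
    exact hyord
  have hμr : B.r ((ν + 1 : ℕ) : k) = ((ν + 1 : ℕ) : κ) := by
    rw [Res.r_of_mem (natCast_mem B.O (ν + 1))]
    exact map_natCast B.res (ν + 1)
  have hμ0 : B.r ((ν + 1 : ℕ) : k) ≠ 0 := by rw [hμr]; exact hν
  have hμη : B.r (((ν + 1 : ℕ) : k) * value Q y) ≠ 0 := Res.r_mul_ne_zero hμ0 hη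
  have hμη0 : ((ν + 1 : ℕ) : k) * value Q y ≠ 0 := Res.ne_zero_of_r hμη
  obtain ⟨α, hα⟩ : ∃ α, α = value Q w / (((ν + 1 : ℕ) : k) * value Q y) := ⟨_, rfl⟩
  have hαO : α ∈ B.O := by
    rw [hα, div_eq_mul_inv]
    exact mul_mem hw2 (Res.inv_mem_of_r hμη)
  refine ⟨α, hαO, ?_⟩
  -- `μ α y - w` vanishes
  have hvL : ((ν + 1 : ℕ) : F) * algebraMap k F α * y - w ∈ L :=
    _root_.sub_mem (mul_mem (mul_mem (natCast_mem L _) (h.const α hαO)) hy) hw
  have hαQ : algebraMap k F α ∈ Q.toValuationSubring := Q.algebraMap_mem' _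
  have hμQ : ((ν + 1 : ℕ) : F) ∈ Q.toValuationSubring := natCast_mem _ _
  have hμv : value Q ((ν + 1 : ℕ) : F) = ((ν + 1 : ℕ) : k) := by
    have := value_algebraMap Q ((ν + 1 : ℕ) : k)
    rwa [map_natCast] at this
  obtain ⟨v, hv, hv'⟩ := hQ3 _ hvL 1 (by
    rw [van_one_iff (hQ1 _ hvL).1, value_sub' Q (mul_mem (mul_mem hμQ hαQ) hy1) hw1,
      value_mul Q (mul_mem hμQ hαQ) hy1, value_mul Q hμQ hαQ, hμv, value_algebraMap, hα,
      mul_right_comm, mul_div_cancel₀ _ hμη0, sub_self])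
  rw [map_zero, sub_zero, pow_one] at hv'
  -- expansions
  set a₁ := a + ϖ ^ (n + 1) * α with ha₁
  have ha₁' : a₁ = ϖ * (a' + ϖ ^ n * α) := by rw [ha₁, ha]; ring
  have ha₁O : a₁ ∈ B.O := add_mem haO (mul_mem (pow_mem hϖO _) hαO)
  have ha₁L := h.const a₁ ha₁O
  have hZ : z - algebraMap k F a₁ ∈ L := h.sub_mem ha₁O
  have heL : algebraMap k F (ϖ ^ (n + 1) * α) ∈ L := h.const _ (mul_mem (pow_mem hϖO _) hαO)
  obtain ⟨G, hG, hG'⟩ := exists_pow_add (L := L) hZ heL (ν + 1)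
  obtain ⟨H, hH, hH'⟩ := exists_pow_add' (L := L) h.z_mem (neg_mem ha₁L) ν
  obtain ⟨H₁, hH₁, hH₁'⟩ := exists_pow_add' (L := L) hZ ha₁L (ν + 1)
  have hcL : algebraMap k F (a' + ϖ ^ n * α) ∈ L :=
    h.const _ (add_mem ha' (mul_mem (pow_mem hϖO _) hαO))
  refine ⟨y + algebraMap k F (ϖ ^ (n + 1)) * v, add_mem hy (mul_mem (h.const _ (pow_mem hϖO _)) hv),
    algebraMap k F (a' + ϖ ^ n * α) * (H₁ * v - ((ν + 1 : ℕ) : F) * algebraMap k F α * y * H) - w' +
      G * algebraMap k F (α ^ 2 * ϖ ^ n) * y, ?_, ?_⟩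
  · refine add_mem (_root_.sub_mem (mul_mem hcL (_root_.sub_mem (mul_mem hH₁ hv)
      (mul_mem (mul_mem (mul_mem (natCast_mem L _) (h.const α hαO)) hy) hH))) hw')
      (mul_mem (mul_mem hG (h.const _ (mul_mem (pow_mem hαO _) (pow_mem hϖO _)))) hy)
  · have e1 : z - algebraMap k F a = (z - algebraMap k F a₁) + algebraMap k F (ϖ ^ (n + 1) * α) := by
      rw [ha₁, map_add]; ring
    have e2 : z - algebraMap k F a₁ + algebraMap k F a₁ = z := by ring
    rw [e2] at hH₁'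
    rw [← sub_eq_add_neg] at hH'
    rw [← e1, Nat.add_sub_cancel] at hG'
    have e3 : algebraMap k F a₁ = algebraMap k F ϖ * algebraMap k F (a' + ϖ ^ n * α) := by
      rw [← map_mul, ← ha₁']
    set Z := z - algebraMap k F a₁ with hZd
    set c := algebraMap k F (a' + ϖ ^ n * α) with hc
    set p := algebraMap k F ϖ with hp
    set A := algebraMap k F α with hA
    simp only [map_mul, map_pow, ← hp, ← hA] at hs hG' ⊢
    rw [hs, hG']
    rw [e3] at hH' hH₁'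
    have e4 : δ = x + z ^ ν * w + p * w' := by linear_combination hδ
    rw [e4]
    have e5 : w = ((ν + 1 : ℕ) : F) * A * y - z * v := by linear_combination -hv'
    rw [e5]
    linear_combination (p ^ (n + 1) * ((ν + 1 : ℕ) : F) * A * y) * hH' + (p ^ (n + 1) * v) * hH₁'

/-- **Newton step** at a fixed point. -/
theorem newton_fix (h : Loc C₀ L P z D) {ν : ℕ} {ϖ : k} (hϖO : ϖ ∈ B.O) {n : ℕ} {s x y : F}
    (hy : y ∈ L) (hs : s = z ^ ν * y + algebraMap k F (ϖ ^ (n + 1)) * x) {δ : F}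
    (hδ : Ap L (z ^ ν) (algebraMap k F ϖ) (δ - x)) :
    Ap L (z ^ ν) (algebraMap k F (ϖ ^ (n + 2))) (s - algebraMap k F (ϖ ^ (n + 1)) * δ) := by
  obtain ⟨w, hw, w', hw', hδ⟩ := hδ
  refine ⟨y - algebraMap k F (ϖ ^ (n + 1)) * w, _root_.sub_mem hy
    (mul_mem (h.const _ (pow_mem hϖO _)) hw), -w', neg_mem hw', ?_⟩
  have e4 : δ = x + z ^ ν * w + algebraMap k F ϖ * w' := by linear_combination hδ
  rw [e4, hs]
  simp only [map_pow]
  ring

end Loc

end Fermat.Agent.TorLift
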