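import Fermat.Agent.TorLift.Newton

/-!
# Newton iteration: the main theorem
-/

set_option autoImplicit false
set_option linter.unusedSectionVars false
set_option linter.style.haveILetI false

noncomputable section

namespace Fermat.Agent.TorLift

open AlgebraicCurve Fermat.Agent.Curves Fermat.Agent.GoodRed Polynomial WithZero
open Fermat.Agent.Models

variable {k κ : Type*} [Field k] [Field κ] {B : Res k κ}

/-- completeness of the base -/
def Cplt (B : Res k κ) : Prop :=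
  ∀ ϖ ∈ B.O, ϖ ≠ 0 → B.r ϖ = 0 → ∀ x : ℕ → k,
    (∀ n, ∃ d ∈ B.O, x (n + 1) - x n = ϖ ^ n * d) → ∃ y, ∀ n, ∃ d ∈ B.O, y - x n = ϖ ^ n * d

theorem Cplt.lim (h : Cplt B) {ϖ : k} (h1 : ϖ ∈ B.O) (h2 : ϖ ≠ 0) (h3 : B.r ϖ = 0) (x : ℕ → k)
    (hx : ∀ n, ∃ d ∈ B.O, x (n + 1) - x n = ϖ ^ (n + 1) * d) :
    ∃ y, ∀ n, ∃ d ∈ B.O, y - x n = ϖ ^ (n + 1) * d := by
  obtain ⟨y, hy⟩ := h ϖ h1 h2 h3 x fun n => by
    obtain ⟨d, hd, hd'⟩ := hx n
    exact ⟨ϖ * d, mul_mem h1 hd, by rw [hd']; ring⟩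
  refine ⟨y, fun n => ?_⟩
  obtain ⟨d, hd, hd'⟩ := hy (n + 1)
  obtain ⟨e, he, he'⟩ := hx n
  exact ⟨d + e, add_mem hd he, by linear_combination hd' + he'⟩

theorem eq_zero_of_forall_dvd (hB : B.RankOne) {ϖ : k} (h1 : ϖ ∈ B.O) (h2 : ϖ ≠ 0)
    (h3 : B.r ϖ = 0) {x : k} (hx : ∀ n : ℕ, ∃ d ∈ B.O, x = ϖ ^ (n + 1) * d) : x = 0 := by
  by_contra hne
  obtain ⟨n, hn, hn'⟩ := hB ϖ h1 h3 x⁻¹
  obtain ⟨d, hd, hd'⟩ := hx n
  have e : ϖ ^ n * x⁻¹ * (ϖ * d) = 1 := by
    rw [hd']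
    have hd0 : d ≠ 0 := by
      rintro rfl
      rw [mul_zero] at hd'
      exact hne hd'
    field_simp
    ring
  have h4 := Res.r_one (C := B)
  rw [← e, Res.r_mul hn (mul_mem h1 hd), hn', zero_mul] at h4
  exact zero_ne_one h4

variable {F 𝓕 : Type*} [Field F] [Algebra k F] [Field 𝓕] [Algebra κ 𝓕]
  [IsAlgClosed k] [IsAlgClosed κ] [IsFunctionField k F] [IsFunctionField κ 𝓕]
  {C₀ : Comp B F 𝓕} {I J : Type*} [Fintype I] [Fintype J]
  {L : I → Subring F} {P : I → Place κ 𝓕} {z : I → F} {D : I → Set (Place k F)}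

/-- uniform approximation -/
theorem exists_uniform (hL : ∀ i, Loc C₀ (L i) (P i) (z i) (D i)) {π₀ : k} (h0 : π₀ ≠ 0)
    (hO : π₀ ∈ B.O) (hr : B.r π₀ = 0) (ν μ : I → ℕ) (v : J → F)
    (hjet : ∀ x : I → F, (∀ i, x i ∈ L i) → ∃ d : J → k, (∀ j, d j ∈ B.O) ∧
      ∀ i, Van (P i) (ν i) (C₀.r (∑ j, algebraMap k F (d j) * v j - x i)))
    (hv : ∀ j i, v j ∈ L i) {s₀ : F} (hs₀ : ∀ i, s₀ ∈ L i)
    (hs₀v : ∀ i, Van (P i) (μ i) (C₀.r s₀)) :
    ∃ ϖ : k, ϖ ≠ 0 ∧ ϖ ∈ B.O ∧ B.r ϖ = 0 ∧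
      (∀ i, Ap (L i) (z i ^ μ i) (algebraMap k F ϖ) s₀) ∧
      ∀ x : I → F, (∀ i, x i ∈ L i) → ∃ d : J → k, (∀ j, d j ∈ B.O) ∧
        ∀ i, Ap (L i) (z i ^ ν i) (algebraMap k F ϖ)
          (∑ j, algebraMap k F (d j) * v j - x i) := by
  classical
  let e : (Σ i : I, Fin (ν i)) → I → F := fun g i => if i = g.1 then z g.1 ^ (g.2 : ℕ) else 0
  have he : ∀ g i, e g i ∈ L i := by
    intro g i
    simp only [e]
    split_ifs with h
    · rw [h]; exact pow_mem (hL g.1).z_mem _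
    · exact zero_mem _
  choose d hd hdv using fun g => hjet (e g) (he g)
  have hmem : ∀ (c : J → k), (∀ j, c j ∈ B.O) → ∀ i, ∑ j, algebraMap k F (c j) * v j ∈ L i :=
    fun c hc i => sum_mem fun j _ => mul_mem ((hL i).const _ (hc j)) (hv j i)
  choose b hb hb0 hbA using fun g i => (hL i).exists_of_van (ν i) _
    (sub_mem (hmem (d g) (hd g) i) (he g i)) (hdv g i)
  choose b' hb' hb0' hbA' using fun i => (hL i).exists_of_van (μ i) _ (hs₀ i) (hs₀v i)
  obtain ⟨ϖ, h1, h2, h3, -, h4⟩ := exists_common_finset (B := B) h0 hO hr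
    (Finset.univ : Finset (I ⊕ ((Σ i : I, Fin (ν i)) × I)))
    (fun a => match a with
      | Sum.inl i => b' i
      | Sum.inr p => b p.1 p.2) (by
        rintro (i | p) _
        · exact ⟨hb' i, hb0' i⟩
        · exact ⟨hb p.1 p.2, hb0 p.1 p.2⟩)
  refine ⟨ϖ, h1, h2, h3, fun i => ?_, fun x hx => ?_⟩
  · obtain ⟨c, hc, hc'⟩ := h4 (Sum.inl i) (Finset.mem_univ _)
    exact (hbA' i).mono_right ((hL i).const c hc) (by rw [← map_mul]; exact congrArg _ hc')
  · choose c hc y hy hxy using fun i => (hL i).taylor (ν i) (x i) (hx i)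
    refine ⟨fun j => ∑ g : (Σ i : I, Fin (ν i)), c g.1 g.2 * d g j, fun j => sum_mem fun g _ =>
      mul_mem (hc _ _) (hd g j), fun i => ?_⟩
    have e1 : ∑ j, algebraMap k F (∑ g : (Σ i : I, Fin (ν i)), c g.1 g.2 * d g j) * v j - x i =
        ∑ g : (Σ i : I, Fin (ν i)), algebraMap k F (c g.1 g.2) *
          (∑ j, algebraMap k F (d g j) * v j - e g i) +
        (∑ g : (Σ i : I, Fin (ν i)), algebraMap k F (c g.1 g.2) * e g i - x i) := by
      simp only [mul_sub, Finset.sum_sub_distrib]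
      have e2 : ∑ j, algebraMap k F (∑ g : (Σ i : I, Fin (ν i)), c g.1 g.2 * d g j) * v j =
          ∑ g : (Σ i : I, Fin (ν i)), algebraMap k F (c g.1 g.2) *
            ∑ j, algebraMap k F (d g j) * v j := by
        simp only [map_sum, Finset.sum_mul, Finset.mul_sum, map_mul]
        rw [Finset.sum_comm]
        simp only [mul_assoc]
      rw [e2]
      ring
    have e3 : ∑ g : (Σ i : I, Fin (ν i)), algebraMap k F (c g.1 g.2) * e g i =
        ∑ j ∈ Finset.range (ν i), algebraMap k F (c i j) * z i ^ j := by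
      rw [Fintype.sum_sigma, Finset.sum_range]
      simp only [e, mul_ite, mul_zero]
      rw [Finset.sum_eq_single i]
      · simp
      · intro i' _ hi'
        simp [Ne.symm hi']
      · intro h
        exact absurd (Finset.mem_univ i) h
    rw [e1, e3]
    refine Ap.add (Ap.sum _ fun g _ => ?_) ?_
    · obtain ⟨c', hc', hc''⟩ := h4 (Sum.inr (g, i)) (Finset.mem_univ _)
      exact ((hbA g i).mono_right ((hL i).const c' hc')
        (by rw [← map_mul]; exact congrArg _ hc'')).mul_left ((hL i).const _ (hc _ _))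
    · have e4 : ∑ j ∈ Finset.range (ν i), algebraMap k F (c i j) * z i ^ j - x i =
          z i ^ ν i * (-y i) := by
        conv_lhs => rw [hxy i]
        ring
      rw [e4]
      exact Ap.left (neg_mem (hy i))

/-- a function lying in `(w^μ) + (ϖ^n)` for all `n` vanishes to order `μ` -/
theorem van_of_ap {L : Subring F} {P : Place κ 𝓕} {z : F} {D : Set (Place k F)}
    (h : Loc C₀ L P z D) (hB : B.RankOne) {ϖ : k} (h1 : ϖ ∈ B.O) (h2 : ϖ ≠ 0)
    (h3 : B.r ϖ = 0) {a : k} {Q : Place k F}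
    (hQ1 : ∀ x ∈ L, x ∈ Q.toValuationSubring ∧ value Q x ∈ B.O ∧
      B.r (value Q x) = value P (C₀.r x))
    (hQ2 : Q.ord (z - algebraMap k F a) = 1)
    (hQ3 : ∀ x ∈ L, ∀ m : ℕ, Van Q m x → ∃ y ∈ L, x = (z - algebraMap k F a) ^ m * y)
    (ha : a ∈ B.O) {s : F} (hs : s ∈ L) {μ : ℕ}
    (hap : ∀ n : ℕ, Ap L ((z - algebraMap k F a) ^ μ) (algebraMap k F (ϖ ^ (n + 1))) s) :
    Van Q μ s := by
  have hwL : z - algebraMap k F a ∈ L := h.sub_mem ha
  set w := z - algebraMap k F a with hw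
  have hw0 : w ≠ 0 := by intro h0; rw [h0] at hQ2; simp at hQ2
  have hwv : Van Q 1 w := by rw [van_iff hw0, hQ2]; simp
  have main : ∀ m : ℕ, m ≤ μ → Van Q m s := by
    intro m
    induction m with
    | zero => intro _; rw [van_zero_iff]; exact (hQ1 s hs).1
    | succ m ih =>
      intro hm
      obtain ⟨g, hg, hsg⟩ := hQ3 s hs m (ih (by omega))
      have hval : value Q g = 0 := by
        refine eq_zero_of_forall_dvd hB h1 h2 h3 fun n => ?_
        obtain ⟨y, hy, x, hx, hxy⟩ := hap n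
        have hϖF : algebraMap k F (ϖ ^ (n + 1)) ≠ 0 := by
          simpa using h2
        obtain ⟨e, he⟩ : ∃ e, μ = m + (e + 1) := ⟨μ - m - 1, by omega⟩
        have e1 : w ^ m * (g - w ^ (e + 1) * y) = algebraMap k F (ϖ ^ (n + 1)) * x := by
          rw [mul_sub, ← hsg, hxy, he, pow_add]
          ring
        have hgL : g - w ^ (e + 1) * y ∈ L := sub_mem hg (mul_mem (pow_mem hwL _) hy)
        have hvx : Van Q m x := by
          have e2 : x = algebraMap k F (ϖ ^ (n + 1))⁻¹ * (w ^ m * (g - w ^ (e + 1) * y)) := by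
            rw [e1, map_inv₀, inv_mul_cancel_left₀ hϖF]
          rw [e2]
          refine Van.mul_left (Q.algebraMap_mem' _) ?_
          rw [mul_comm]
          exact Van.mul_left (hQ1 _ hgL).1 (hwv.pow m)
        obtain ⟨x', hx', hxx⟩ := hQ3 x hx m hvx
        have e3 : g = w ^ (e + 1) * y + algebraMap k F (ϖ ^ (n + 1)) * x' := by
          have e4 : w ^ m * (g - w ^ (e + 1) * y - algebraMap k F (ϖ ^ (n + 1)) * x') = 0 := by
            rw [mul_sub, e1, hxx]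
            ring
          have e5 := (mul_eq_zero.mp e4).resolve_left (pow_ne_zero m hw0)
          linear_combination e5
        obtain ⟨hx'1, hx'2, -⟩ := hQ1 x' hx'
        have hz1 : w ^ (e + 1) * y ∈ Q.toValuationSubring := (hQ1 _ (mul_mem (pow_mem hwL _) hy)).1
        have hz2 : value Q (w ^ (e + 1) * y) = 0 := by
          rw [← van_one_iff hz1, mul_comm]
          exact Van.mul_left (hQ1 y hy).1 ((hwv.pow (e + 1)).mono (by omega))
        refine ⟨value Q x', hx'2, ?_⟩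
        rw [e3, value_add Q hz1 (mul_mem (Q.algebraMap_mem' _) hx'1), hz2, zero_add,
          value_mul Q (Q.algebraMap_mem' _) hx'1, value_algebraMap]
      rw [hsg]
      exact (hwv.pow m).mul ((van_one_iff (hQ1 g hg).1).mpr hval)
  exact main μ le_rfl

/-- **Newton iteration.** -/
theorem newton (hB : B.RankOne) (hcp : Cplt B) (hL : ∀ i, Loc C₀ (L i) (P i) (z i) (D i))
    {π₀ : k} (h0 : π₀ ≠ 0)
    (hO : π₀ ∈ B.O) (hr : B.r π₀ = 0) (ν μ : I → ℕ) (mov : I → Prop)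
    (hμ : ∀ i, mov i → μ i = ν i + 1 ∧ ((μ i : ℕ) : κ) ≠ 0) (hμ' : ∀ i, ¬ mov i → μ i = ν i)
    (v : J → F)
    (hjet : ∀ x : I → F, (∀ i, x i ∈ L i) → ∃ d : J → k, (∀ j, d j ∈ B.O) ∧
      ∀ i, Van (P i) (ν i) (C₀.r (∑ j, algebraMap k F (d j) * v j - x i)))
    (hv : ∀ j i, v j ∈ L i) (hvO : ∀ j, v j ∈ C₀.O) {s₀ : F} (hs₀ : ∀ i, s₀ ∈ L i)
    (hsr : C₀.r s₀ ≠ 0) (hord : ∀ i, (P i).ord (C₀.r s₀) = μ i) :
    ∃ c : J → k, (∀ j, c j ∈ B.O ∧ B.r (c j) = 0) ∧
      ∀ i, ∃ Q ∈ D i, Van Q (μ i) (s₀ + ∑ j, algebraMap k F (c j) * v j) := by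
  classical
  obtain ⟨ϖ, hϖ0, hϖO, hϖr, hinit, hunif⟩ := exists_uniform hL h0 hO hr ν μ v hjet hv hs₀
    (fun i => by rw [van_iff hsr, hord])
  -- the states
  let s : (J → k) → F := fun c => s₀ + ∑ j, algebraMap k F (c j) * v j
  let St : ℕ → (J → k) × (I → k) → Prop := fun n p =>
    (∀ j, ∃ c ∈ B.O, p.1 j = ϖ * c) ∧ (∀ i, ∃ c ∈ B.O, p.2 i = ϖ * c) ∧
    (∀ i, ¬ mov i → p.2 i = 0) ∧
    ∀ i, Ap (L i) ((z i - algebraMap k F (p.2 i)) ^ μ i) (algebraMap k F (ϖ ^ (n + 1))) (s p.1)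
  let Rel : ℕ → (J → k) × (I → k) → (J → k) × (I → k) → Prop := fun n p p' =>
    (∀ j, ∃ d ∈ B.O, p'.1 j - p.1 j = ϖ ^ (n + 1) * d) ∧
    ∀ i, ∃ d ∈ B.O, p'.2 i - p.2 i = ϖ ^ (n + 1) * d
  have hsmall : ∀ {x : k}, (∃ c ∈ B.O, x = ϖ * c) → x ∈ B.O ∧ B.r x = 0 := by
    rintro x ⟨c, hc, rfl⟩
    exact ⟨mul_mem hϖO hc, by rw [Res.r_mul hϖO hc, hϖr, zero_mul]⟩
  have hsO : s₀ ∈ C₀.O := Res.mem_of_r_ne_zero hsr
  have hres : ∀ c : J → k, (∀ j, c j ∈ B.O ∧ B.r (c j) = 0) → C₀.r (s c) = C₀.r s₀ := by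
    intro c hc
    have h1 : ∀ j ∈ Finset.univ, algebraMap k F (c j) * v j ∈ C₀.O := fun j _ =>
      mul_mem (C₀.algebraMap_mem _ (hc j).1) (hvO j)
    rw [Res.r_add hsO (sum_mem h1), Res.r_sum _ _ h1, Finset.sum_eq_zero, add_zero]
    intro j _
    rw [Res.r_mul (C₀.algebraMap_mem _ (hc j).1) (hvO j),
      C₀.r_algebraMap_eq_zero (hc j).1 (hc j).2, zero_mul]
  have hstep : ∀ n p, St n p → ∃ p', St (n + 1) p' ∧ Rel n p p' := by
    rintro n ⟨c, a⟩ ⟨hc, ha, hfix, hap⟩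
    simp only at hc ha hfix hap
    choose y hy x hx hsx using hap
    obtain ⟨d, hd, hdA⟩ := hunif x hx
    have hsr' := hres c fun j => hsmall (hc j)
    have hsr0 : C₀.r (s c) ≠ 0 := by rw [hsr']; exact hsr
    have h1 : ∀ i, ∃ α ∈ B.O, (¬ mov i → α = 0) ∧
        Ap (L i) ((z i - algebraMap k F (a i + ϖ ^ (n + 1) * α)) ^ μ i)
          (algebraMap k F (ϖ ^ (n + 2)))
          (s c - algebraMap k F (ϖ ^ (n + 1)) * ∑ j, algebraMap k F (d j) * v j) := by
      intro i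
      by_cases hi : mov i
      · obtain ⟨h2, h3⟩ := hμ i hi
        rw [h2] at h3
        obtain ⟨a', ha', ha''⟩ := ha i
        have h4 := hsx i
        rw [h2] at h4
        obtain ⟨α, hα, hα'⟩ := (hL i).newton_mov h3 hϖO hϖr ha' ha'' (hx i) (hy i) h4 hsr0
          (by rw [hsr', hord, h2]; push_cast; ring) (hdA i)
        rw [h2]
        exact ⟨α, hα, fun h => absurd hi h, hα'⟩
      · have h2 := hμ' i hi
        have h4 := hsx i
        rw [hfix i hi, map_zero, sub_zero] at h4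
        refine ⟨0, zero_mem _, fun _ => rfl, ?_⟩
        rw [hfix i hi, mul_zero, add_zero, map_zero, sub_zero]
        rw [h2] at h4 ⊢
        exact (hL i).newton_fix hϖO (hy i) h4 (hdA i)
    choose α hα hα0 hαA using h1
    refine ⟨(fun j => c j - ϖ ^ (n + 1) * d j, fun i => a i + ϖ ^ (n + 1) * α i),
      ⟨fun j => ?_, fun i => ?_, fun i hi => ?_, fun i => ?_⟩, fun j => ?_, fun i => ?_⟩
    · obtain ⟨c', hc', hc''⟩ := hc j
      exact ⟨c' - ϖ ^ n * d j, sub_mem hc' (mul_mem (pow_mem hϖO _) (hd j)), by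
        simp only [hc'']; ring⟩
    · obtain ⟨a', ha', ha''⟩ := ha i
      exact ⟨a' + ϖ ^ n * α i, add_mem ha' (mul_mem (pow_mem hϖO _) (hα i)), by
        simp only [ha'']; ring⟩
    · simp only [hfix i hi, hα0 i hi, mul_zero, add_zero]
    · have e : s (fun j => c j - ϖ ^ (n + 1) * d j) =
          s c - algebraMap k F (ϖ ^ (n + 1)) * ∑ j, algebraMap k F (d j) * v j := by
        simp only [s, map_sub, map_mul, sub_mul, Finset.sum_sub_distrib, Finset.mul_sum, mul_assoc]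
        ring
      simp only [e]
      exact hαA i
    · exact ⟨-d j, neg_mem (hd j), by simp only; ring⟩
    · exact ⟨α i, hα i, by simp only; ring⟩
  choose! f hf using hstep
  let x : ℕ → (J → k) × (I → k) := fun n => Nat.rec (0, 0) (fun n p => f n p) n
  have hx0 : x 0 = (0, 0) := rfl
  have hxs : ∀ n, x (n + 1) = f n (x n) := fun n => rfl
  have hSt : ∀ n, St n (x n) := by
    intro n
    induction n with
    | zero =>
      rw [hx0]
      refine ⟨fun j => ⟨0, zero_mem _, by simp⟩, fun i => ⟨0, zero_mem _, by simp⟩,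
        fun i _ => rfl, fun i => ?_⟩
      have := hinit i
      simpa [s] using this
    | succ n ih => rw [hxs]; exact (hf n _ ih).1
  have hRel : ∀ n, Rel n (x n) (x (n + 1)) := fun n => by rw [hxs]; exact (hf n _ (hSt n)).2
  choose c hc using fun j => hcp.lim hϖO hϖ0 hϖr (fun n => (x n).1 j) fun n => (hRel n).1 j
  choose a ha using fun i => hcp.lim hϖO hϖ0 hϖr (fun n => (x n).2 i) fun n => (hRel n).2 i
  have hc' : ∀ j, ∃ e ∈ B.O, c j = ϖ * e := by
    intro j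
    obtain ⟨d, hd, hd'⟩ := hc j 0
    obtain ⟨e, he, he'⟩ := (hSt 0).1 j
    exact ⟨d + e, add_mem hd he, by linear_combination hd' + he'⟩
  have ha' : ∀ i, ∃ e ∈ B.O, a i = ϖ * e := by
    intro i
    obtain ⟨d, hd, hd'⟩ := ha i 0
    obtain ⟨e, he, he'⟩ := (hSt 0).2.1 i
    exact ⟨d + e, add_mem hd he, by linear_combination hd' + he'⟩
  refine ⟨c, fun j => hsmall (hc' j), fun i => ?_⟩
  obtain ⟨haO, har⟩ := hsmall (ha' i)
  obtain ⟨Q, hQD, hQ1, hQ2, hQ3⟩ := (hL i).pl (a i) haO har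
  have hcO : ∀ j, c j ∈ B.O := fun j => (hsmall (hc' j)).1
  refine ⟨Q, hQD, van_of_ap (hL i) hB hϖO hϖ0 hϖr hQ1 hQ2 hQ3 haO ?_ fun n => ?_⟩
  · exact add_mem (hs₀ i) (sum_mem fun j _ => mul_mem ((hL i).const _ (hcO j)) (hv j i))
  · have h1 := (hSt n).2.2.2 i
    obtain ⟨e, he, he'⟩ := ha i n
    choose d hd hd' using fun j => hc j n
    obtain ⟨g, hg, hg'⟩ := exists_pow_add' (L := L i) ((hL i).sub_mem haO)
      ((hL i).const (a i - (x n).2 i) (by rw [he']; exact mul_mem (pow_mem hϖO _) he)) (μ i)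
    have e1 : z i - algebraMap k F (a i) + algebraMap k F (a i - (x n).2 i) =
        z i - algebraMap k F ((x n).2 i) := by rw [map_sub]; ring
    rw [e1, he', map_mul] at hg'
    have h2 := h1.congr_left (p' := (z i - algebraMap k F (a i)) ^ μ i)
      (c := algebraMap k F e * g)
      (mul_mem ((hL i).const e he) hg) (by rw [hg']; ring)
    have e2 : s₀ + ∑ j, algebraMap k F (c j) * v j = s (x n).1 +
        algebraMap k F (ϖ ^ (n + 1)) * ∑ j, algebraMap k F (d j) * v j := by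
      have e3 : ∀ j, c j = (x n).1 j + ϖ ^ (n + 1) * d j := fun j => by
        linear_combination hd' j
      simp only [s, e3, map_add, map_mul, add_mul, Finset.sum_add_distrib, Finset.mul_sum,
        mul_assoc]
      ring
    rw [e2]
    exact h2.add (Ap.right (sum_mem fun j _ => mul_mem ((hL i).const _ (hd j)) (hv j i)))

end Fermat.Agent.TorLift
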